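import Fermat.Agent.CoreW.Num
import Fermat.Agent.ZG.NumW
import Fermat.Agent.JT.PtY
import Fermat.Agent.WM.Lev
import Fermat.Agent.WPt.Main

/-!
# The base levels of a semistable curve
-/

set_option autoImplicit false
set_option linter.unusedSectionVars false
set_option linter.style.haveILetI false

noncomputable section

namespace Fermat.Agent.CoreW

open Matrix IsLocalRing Fermat.Agent.GalRep Fermat.Agent.TW Fermat.Agent.Places Fermat.Agent.Flat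
open Fermat.Agent.Cheb Fermat.Agent.KumG Fermat.Agent.MD Fermat.Agent.Sel Fermat.Agent.ImW
open Fermat.Agent.WM Fermat.Agent.StR Fermat.Agent.JT
open Fermat.Agent.ZG (NData)

local notation "Ω" => AlgebraicClosure ℚ

local notation "𝒢" => (AlgebraicClosure ℚ) ≃ₐ[ℚ] (AlgebraicClosure ℚ)

/-- The residual data together with the auxiliary prime and the part at `p` of the level
(`pe = 1` or `pe = p`). -/
structure BData (W : WeierstrassCurve ℤ) (p r₀ : ℕ) [hp : Fact p.Prime] (ρ : 𝒢 →* M2 (ZMod p))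
    (k : Type) [Field k] [Algebra (ZMod p) k] {t : ℕ} (q : Fin t → ℕ) (ty : Fin t → Ty)
    (S₀ Un : Finset ℕ) (pe : ℕ) : Prop where
  nd : NData W p r₀ ρ k q ty S₀ Un
  hr : r₀.Prime
  hrp : r₀ ≠ p
  hrg : W.IsGoodPrimeFor r₀
  hr12 : r₀ % 12 = 11
  hpe : pe = 1 ∨ pe = p

namespace BData

variable {W : WeierstrassCurve ℤ} {p r₀ : ℕ} [hp : Fact p.Prime] {ρ : 𝒢 →* M2 (ZMod p)}
  {k : Type} [Field k] [Algebra (ZMod p) k] {t : ℕ} {q : Fin t → ℕ} {ty : Fin t → Ty}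
  {S₀ Un : Finset ℕ} {pe : ℕ} (D : BData W p r₀ ρ k q ty S₀ Un pe)

include D

theorem primeU {l : ℕ} (h : l ∈ Un) : l.Prime := ((D.nd.memU l).1 h).1.1

theorem primeq (j : Fin t) : (q j).Prime := ((D.nd.memq (q j)).1 ⟨j, rfl⟩).1.1

theorem bad_q (j : Fin t) : ¬ W.IsGoodPrimeFor (q j) := ((D.nd.memq (q j)).1 ⟨j, rfl⟩).1.2

theorem q_ne (j : Fin t) : q j ≠ p := ((D.nd.memq (q j)).1 ⟨j, rfl⟩).2.1

theorem unr_q (j : Fin t) : Unr ρ (q j) := ((D.nd.memq (q j)).1 ⟨j, rfl⟩).2.2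

theorem injq : Function.Injective q := D.nd.num.inj

theorem q_ne_r (j : Fin t) : q j ≠ r₀ := fun h => D.bad_q j (h ▸ D.hrg)

theorem q_not_U (j : Fin t) : q j ∉ Un := (D.nd.num.hq j).2.2

theorem r_not_U : r₀ ∉ Un := fun h => ((D.nd.memU r₀).1 h).1.2 D.hrg

theorem U_ne {l : ℕ} (h : l ∈ Un) : l ≠ p := ((D.nd.memU l).1 h).2.1

theorem pe_pos : 0 < pe := by
  rcases D.hpe with h | h
  · rw [h]; exact one_pos
  · rw [h]; exact hp.out.pos

theorem pe_sq : Squarefree pe := by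
  rcases D.hpe with h | h
  · rw [h]; exact squarefree_one
  · rw [h]; exact hp.out.squarefree

theorem not_dvd_pe {l : ℕ} (hl : l.Prime) (hlp : l ≠ p) : ¬ l ∣ pe := by
  intro hd
  rcases D.hpe with h | h
  · rw [h, Nat.dvd_one] at hd
    exact hl.one_lt.ne' hd
  · rw [h, Nat.prime_dvd_prime_iff_eq hl hp.out] at hd
    exact hlp hd

theorem dvd_pe {l : ℕ} (hl : l.Prime) (hd : l ∣ pe) : l = p := by
  by_contra hlp
  exact D.not_dvd_pe hl hlp hd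

theorem base_pos : 0 < baseN pe r₀ Un := baseN_pos D.hr (fun _ h => D.primeU h) D.pe_pos

theorem pos (J : Finset (Fin t)) : 0 < NJ pe r₀ Un q J :=
  NJ_pos D.hr (fun _ h => D.primeU h) D.pe_pos D.primeq J

theorem neZero (J : Finset (Fin t)) : NeZero (NJ pe r₀ Un q J) := ⟨(D.pos J).ne'⟩

theorem sqfree (J : Finset (Fin t)) : Squarefree (NJ pe r₀ Un q J) :=
  squarefree_NJ D.hr (fun _ h => D.primeU h) D.pe_sq (D.not_dvd_pe D.hr D.hrp)
    (fun _ h => D.not_dvd_pe (D.primeU h) (D.U_ne h)) D.r_not_U D.primeq D.injq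
    (fun j => D.not_dvd_pe (D.primeq j) (D.q_ne j)) D.q_ne_r D.q_not_U J

theorem three_le (J : Finset (Fin t)) : 3 ≤ NJ pe r₀ Un q J := by
  have h1 := Nat.le_of_dvd (D.pos J) (r_dvd pe r₀ Un q J)
  have h2 := D.hr12
  omega

theorem prime_dvd {J : Finset (Fin t)} {l : ℕ} (hl : l.Prime) :
    l ∣ NJ pe r₀ Un q J ↔ l ∣ pe ∨ l = r₀ ∨ l ∈ Un ∨ ∃ j ∈ J, q j = l :=
  prime_dvd_NJ D.hr (fun _ h => D.primeU h) D.primeq hl

theorem p_mem : p ∈ (S₀ : Set ℕ) := (D.nd.mem p).2 (Or.inl rfl)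

theorem good {l : ℕ} (hl : l.Prime) (h : l ∉ (S₀ : Set ℕ)) : W.IsGoodPrimeFor l := by
  by_contra hg
  exact h ((D.nd.mem l).2 (Or.inr (Or.inr ⟨hl, hg⟩)))

theorem hNS₀ (J : Finset (Fin t)) (l : ℕ) (hl : l.Prime) (hd : l ∣ NJ pe r₀ Un q J) :
    l ∈ (S₀ : Set ℕ) := by
  refine (D.nd.mem l).2 ?_
  rcases (D.prime_dvd hl).1 hd with h | h | h | ⟨j, -, h⟩
  · exact Or.inl (D.dvd_pe hl h)
  · exact Or.inr (Or.inl h)
  · exact Or.inr (Or.inr ((D.nd.memU l).1 h).1)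
  · exact Or.inr (Or.inr ((D.nd.memq l).1 ⟨j, h⟩).1)

/-- the bad primes different from `p` divide the top level -/
theorem bad_dvd {l : ℕ} (hl : l.Prime) (hbad : ¬ W.IsGoodPrimeFor l) (hlp : l ≠ p) :
    l ∣ NJ pe r₀ Un q Finset.univ := by
  rw [D.prime_dvd hl]
  by_cases hu : Unr ρ l
  · obtain ⟨j, hj⟩ := (D.nd.memq l).2 ⟨⟨hl, hbad⟩, hlp, hu⟩
    exact Or.inr (Or.inr (Or.inr ⟨j, Finset.mem_univ j, hj⟩))
  · exact Or.inr (Or.inr (Or.inl ((D.nd.memU l).2 ⟨⟨hl, hbad⟩, hlp, hu⟩)))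

theorem p_dvd_iff (J : Finset (Fin t)) : p ∣ NJ pe r₀ Un q J ↔ pe = p := by
  rw [D.prime_dvd hp.out]
  constructor
  · rintro (h | h | h | ⟨j, -, h⟩)
    · rcases D.hpe with h1 | h1
      · rw [h1, Nat.dvd_one] at h
        exact absurd h hp.out.one_lt.ne'
      · exact h1
    · exact absurd h.symm D.hrp
    · exact absurd rfl (D.U_ne h)
    · exact absurd h (D.q_ne j)
  · rintro h
    left
    rw [h]

/-- `q j` does not divide the levels `J` with `j ∉ J` -/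
theorem q_dvd_iff (J : Finset (Fin t)) (j : Fin t) : q j ∣ NJ pe r₀ Un q J ↔ j ∈ J := by
  rw [D.prime_dvd (D.primeq j)]
  constructor
  · rintro (h | h | h | ⟨i, hi, h⟩)
    · exact absurd h (D.not_dvd_pe (D.primeq j) (D.q_ne j))
    · exact absurd h (D.q_ne_r j)
    · exact absurd h (D.q_not_U j)
    · exact D.injq h ▸ hi
  · exact fun h => Or.inr (Or.inr (Or.inr ⟨j, h, rfl⟩))

/-- a minimal level divides the base level -/
theorem dvd_base (h : ResW W p ρ) {M : ℕ} (hsq : Squarefree M)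
    (hM : ∀ q, q.Prime → q ∣ M → q ≠ p → ¬ Unr ρ q) (hMp : p ∣ M → pe = p) :
    M ∣ baseN pe r₀ Un := by
  refine sqfree_dvd hsq fun l hl hd => ?_
  rw [prime_dvd_baseN D.hr (fun _ h => D.primeU h) hl]
  by_cases hlp : l = p
  · left
    rw [hMp (hlp ▸ hd), hlp]
  · right; right
    have hu := hM l hl hd hlp
    refine (D.nd.memU l).2 ⟨⟨hl, fun hg => hu fun A hA σ hσ => ?_⟩, hlp, hu⟩
    exact h.unr l hl hg hlp A hA σ hσ

/-- the curve is residually modular of all base levels -/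
theorem modular (h : ResW W p ρ) {M : ℕ} (hsq : Squarefree M)
    (hM : ∀ q, q.Prime → q ∣ M → q ≠ p → ¬ Unr ρ q) (hMp : p ∣ M → pe = p)
    (hmod : W.IsResiduallyModularOfLevel p M) : W.IsResiduallyModularOfLevel p (baseN pe r₀ Un) := by
  haveI : NeZero (baseN pe r₀ Un) := ⟨D.base_pos.ne'⟩
  obtain ⟨f, 𝔪, hf, h𝔪, hp, hc⟩ := hmod
  have hMN := D.dvd_base h hsq hM hMp
  obtain ⟨g, hg, hgf⟩ := CL.exists_at_level hMN hf
  refine ⟨g, 𝔪, hg, h𝔪, hp, fun ℓ hℓ hg' hℓN hℓp => ?_⟩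
  obtain ⟨a, ha, ha'⟩ := hc ℓ hℓ hg' (fun hd => hℓN (hd.trans hMN)) hℓp
  exact ⟨a, by rw [ha, hgf ℓ hℓ hℓN], ha'⟩

/-- the same data with the other part at `p` -/
theorem change {pe' : ℕ} (h : pe' = 1 ∨ pe' = p) : BData W p r₀ ρ k q ty S₀ Un pe' :=
  ⟨D.nd, D.hr, D.hrp, D.hrg, D.hr12, h⟩

/-- the primes of the Taylor–Wiles levels -/
theorem hNS {J : Finset (Fin t)} {r : ℕ} {v : Fin r → ℕ} (hv : ∀ i, (v i).Prime)
    (s : Finset (Fin r)) (l : ℕ) (hl : l.Prime) (hd : l ∣ NN (NJ pe r₀ Un q J) v s) :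
    l ∈ (S₀ : Set ℕ) ∪ Set.range v := by
  rw [NN, hl.dvd_mul] at hd
  rcases hd with hd | hd
  · exact Or.inl (D.hNS₀ J l hl hd)
  · obtain ⟨i, -, hi⟩ := (hl.prime.dvd_finsetProd_iff _).1 hd
    rw [Nat.prime_dvd_prime_iff_eq hl (hv i)] at hi
    exact Or.inr ⟨i, hi.symm⟩

theorem hNS' {J : Finset (Fin t)} {r : ℕ} {v : Fin r → ℕ} (hv : ∀ i, (v i).Prime)
    (l : ℕ) (hl : l.Prime) (hd : l ∣ NJ pe r₀ Un q J * ∏ i, v i) :
    l ∈ (S₀ : Set ℕ) ∪ Set.range v := D.hNS hv Finset.univ l hl hd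

end BData

section lev

variable {W : WeierstrassCurve ℤ} {p r₀ : ℕ} [hp : Fact p.Prime] {ρ : 𝒢 →* M2 (ZMod p)}
  (h : ResW W p ρ)
  {O : Type} [CommRing O] [IsDomain O] [IsDiscreteValuationRing O]
  [IsAdicComplete (maximalIdeal O) O] [CharZero O] [Finite (ResidueField O)]
  (hp2 : p ≠ 2) (hpO : (p : O) ∈ maximalIdeal O)
  (ι : AlgebraicClosure ℚ →+* ℂ) [Invertible (2 : O)] [Algebra (ZMod p) (ResidueField O)]
  {g₀ k₀ : 𝒢}
  (hgk : HG.IrrAt (fun g => (extW ρ (algebraMap (ZMod p) (ResidueField O)) g).trace) g₀ k₀)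
  {t : ℕ} {q : Fin t → ℕ} {ty : Fin t → Ty} {S₀ Un : Finset ℕ} {pe : ℕ}
  (D : BData W p r₀ ρ (ResidueField O) q ty S₀ Un pe)
  (hmod : W.IsResiduallyModularOfLevel p (baseN pe r₀ Un))

include D hmod in
/-- occurrence at the base levels -/
theorem occ_base (J : Finset (Fin t)) [NeZero (NJ pe r₀ Un q J)]
    (hNS₀ : ∀ l, l.Prime → l ∣ NJ pe r₀ Un q J → l ∈ (S₀ : Set ℕ))
    (s : TS O (S₀ : Set ℕ)) (hs : phiG O hNS₀ s = 0) :
    thS (tl (algebraMap (ZMod p) (ResidueField O)) W) (S₀ : Set ℕ) s = 0 :=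
  occ_of_modular _ (base_dvd pe r₀ Un q J) hmod hNS₀ D.p_mem (fun _ hl hS => D.good hl hS) s hs

include h D hmod hp2 in
/-- **The Taylor–Wiles levels over the base levels.** -/
theorem lev0_W {J : Finset (Fin t)} [NeZero (NJ pe r₀ Un q J)]
    {r : ℕ} {v : Fin r → ℕ} {A : Fin r → ValuationSubring (AlgebraicClosure ℚ)}
    {Φ : Fin r → GQ} (hinj : Function.Injective v) (hvS : ∀ i, v i ∉ (S₀ : Set ℕ))
    {m c : Fin r → ℕ} (hmc : ∀ i, v i - 1 = p ^ m i * c i) (hc : ∀ i, ¬ p ∣ c i)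
    (hm : ∀ i, 1 ≤ m i)
    (hv : ∀ i, TWp p (fun g => (extW ρ (algebraMap (ZMod p) (ResidueField O)) g).trace) (v i)
      (A i) (Φ i))
    {N : ℕ} [NeZero N] (hN : N = NJ pe r₀ Un q J * ∏ i, v i) {S : Set ℕ}
    (hSS : S = (S₀ : Set ℕ) ∪ Set.range v)
    (hNS : ∀ l, l.Prime → l ∣ N → l ∈ S) (hvN : ∀ i, v i ∣ N)
    [hH : Fact ((-1 : (ZMod N)ˣ) ∈ HQ hvN c)]
    [∀ s : Finset (Fin r), NeZero (NN (NJ pe r₀ Un q J) v s)]
    (hNNS : ∀ s, ∀ l, l.Prime → l ∣ NN (NJ pe r₀ Un q J) v s → l ∈ S) {e : TS O S}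
    (heok : EOK hNNS hNS (HQ hvN c)
      (thS (tl (algebraMap (ZMod p) (ResidueField O)) W) S) e) :
    Lev0 hpO ι hgk hNS (thS (tl (algebraMap (ZMod p) (ResidueField O)) W) S) v A m c e
      (2 ^ r * Module.finrank O (XG O (NJ pe r₀ Un q J))) :=
  exists_lev0 hpO hp2 ι hgk (D.three_le J) (Finset.finite_toSet S₀) D.p_mem (D.hNS₀ J)
    (isPseudoRep _ ρ) (isLocConst_tr h _)
    (fun l hl hlS A hA τ hτ => hfr h _ D.p_mem (fun _ hl hS => D.good hl hS) l hl hlS A hA τ hτ)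
    (occ_base D hmod J (D.hNS₀ J)) (exists_com h _ hp2) hinj hvS hmc hc hm hv hN hSS hNS hvN hNNS
    heok

end lev

section pt

variable {W : WeierstrassCurve ℤ} {p : ℕ} [hp : Fact p.Prime] {ρ : 𝒢 →* M2 (ZMod p)}
  {O : Type} [CommRing O] [IsDomain O] [IsLocalRing O] [IsNoetherianRing O]
  [IsAdicComplete (maximalIdeal O) O]
  {hpO : (p : O) ∈ maximalIdeal O} {κ : ZMod p →+* ResidueField O} {g₀ : 𝒢}
  {ρW : 𝒢 →* M2 O}

/-- the Frobenius traces of the curve -/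
def aW (O : Type) [CommRing O] (W : WeierstrassCurve ℤ) (l : ℕ) : O := ((W.apOfModel l : ℤ) : O)

theorem jt_of_wrep (h : WPt.WRep W p hpO ρ κ g₀ ρW) {S : Set ℕ} (hpS : p ∈ S)
    (hgood : ∀ l, l.Prime → l ∉ S → W.IsGoodPrimeFor l) : JT.WRep hpO S (aW O W) ρW :=
  ⟨h.det, h.cont, fun l hl hlS A hA τ hτ =>
    h.trace l hl (hgood l hl hlS) (fun e => hlS (e ▸ hpS)) A hA τ hτ⟩

theorem residue_aW {O : Type} [CommRing O] [IsDomain O] [IsDiscreteValuationRing O]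
    [IsAdicComplete (maximalIdeal O) O] [CharZero O] [Finite (ResidueField O)]
    (κ : ZMod p →+* ResidueField O) (W : WeierstrassCurve ℤ) {S : Set ℕ}
    (i : IS S) : residue O (aW O W i) = thS (tl κ W) S (MvPolynomial.X i) := by
  rw [thS_X, aW, tl, map_intCast, map_intCast]

end pt

/-- **Existence of the base data.** -/
theorem exists_bData {W : WeierstrassCurve ℤ} {p : ℕ} [hp : Fact p.Prime] {ρ : 𝒢 →* M2 (ZMod p)}
    {k : Type} [Field k] [Algebra (ZMod p) k] (h : ResW W p ρ) (hΔ : W.Δ ≠ 0)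
    (hss : W.IsSemistableModel) (hp35 : p = 3 ∨ p = 5)
    (hroot : ∀ m n : ℤ, ∃ x y : k, x + y = m ∧ x * y = n) {F : Set ℕ} (hF : F.Finite) :
    ∃ (r₀ : ℕ) (t : ℕ) (q : Fin t → ℕ) (ty : Fin t → Ty) (S₀ Un : Finset ℕ), r₀ ∉ F ∧
      ∀ pe, (pe = 1 ∨ pe = p) → BData W p r₀ ρ k q ty S₀ Un pe := by
  obtain ⟨r₀, hr, hrF, hr12, -, hrp, hrg, -, hr1, -, hrt⟩ := h.exists_rprime hΔ hss hp35
    (algebraMap (ZMod p) k) hF
  obtain ⟨t, q, ty, S₀, Un, D⟩ := ZG.exists_nData (k := k) h hΔ hss hp35 (fun σ => by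
    obtain ⟨α, β, h1, h2⟩ := ext_split (algebraMap (ZMod p) k) hroot (ρ := ρ) σ
    exact ⟨α, β, h1.symm, h2.symm⟩) hr hrp hrg hr1 (fun A hA Φ hΦ => (hrt A hA Φ hΦ).2)
  exact ⟨r₀, t, q, ty, S₀, Un, hrF, fun pe hpe => ⟨D, hr, hrp, hrg, hr12, hpe⟩⟩

end Fermat.Agent.CoreW
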