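import Fermat.Agent.CoreW.Setup
import Fermat.Agent.AsmL.Jt
import Fermat.Agent.AsmF.Fam
import Fermat.Agent.ZG.LvW
import Fermat.Agent.ZG.Main

/-!
# The data at a level, for a semistable curve (cases I and II)
-/

set_option autoImplicit false
set_option linter.unusedSectionVars false
set_option linter.style.haveILetI false

noncomputable section

namespace Fermat.Agent.CoreW

open Matrix IsLocalRing Fermat.Agent.GalRep Fermat.Agent.TW Fermat.Agent.Places Fermat.Agent.Flat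
open Fermat.Agent.Cheb Fermat.Agent.KumG Fermat.Agent.MD Fermat.Agent.Sel Fermat.Agent.ImW
open Fermat.Agent.WM Fermat.Agent.StR Fermat.Agent.JT Fermat.Agent.AsmL Fermat.Agent.E2N
open Fermat.Agent.ZG (NData SDat LvH FrD NmH PhiJ parS TWn)

local notation "Ω" => AlgebraicClosure ℚ

local notation "𝒢" => (AlgebraicClosure ℚ) ≃ₐ[ℚ] (AlgebraicClosure ℚ)

section ctl

variable {W : WeierstrassCurve ℤ} {p r₀ : ℕ} [hp : Fact p.Prime] {ρ : 𝒢 →* M2 (ZMod p)}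
  (h : ResW W p ρ)
  {O : Type} [CommRing O] [IsDomain O] [IsDiscreteValuationRing O]
  [IsAdicComplete (maximalIdeal O) O] [CharZero O] [Finite (ResidueField O)]
  (hp2 : p ≠ 2) {hpO : (p : O) ∈ maximalIdeal O}
  {ι : AlgebraicClosure ℚ →+* ℂ} [Invertible (2 : O)] [Algebra (ZMod p) (ResidueField O)]
  {g₀ k₀ : 𝒢}
  {hgk : HG.IrrAt (fun g => (extW ρ (algebraMap (ZMod p) (ResidueField O)) g).trace) g₀ k₀}
  {t : ℕ} {q : Fin t → ℕ} {ty : Fin t → Ty} {S₀ Un : Finset ℕ} {pe : ℕ}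
  (D : BData W p r₀ ρ (ResidueField O) q ty S₀ Un pe)

include h hp2 D in
/-- **Control for the curve.** -/
theorem ctl_W (J : Finset (Fin t)) [NeZero (NJ pe r₀ Un q J)]
    {r : ℕ} {v : Fin r → ℕ} {A : Fin r → ValuationSubring Ω} {Fv : Fin r → GQ}
    (hinj : Function.Injective v) (hvS : ∀ i, v i ∉ (S₀ : Set ℕ))
    {m c : Fin r → ℕ} (hmc : ∀ i, v i - 1 = p ^ m i * c i) (hc : ∀ i, ¬ p ∣ c i)
    (hm : ∀ i, 1 ≤ m i)
    (hv : ∀ i, TWp p (fun g => (extW ρ (algebraMap (ZMod p) (ResidueField O)) g).trace) (v i)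
      (A i) (Fv i))
    {N : ℕ} [NeZero N] (hN : N = NJ pe r₀ Un q J * ∏ i, v i) {S : Set ℕ}
    (hSS : S = (S₀ : Set ℕ) ∪ Set.range v)
    {hNS : ∀ l, l.Prime → l ∣ N → l ∈ S}
    [∀ s : Finset (Fin r), NeZero (NN (NJ pe r₀ Un q J) v s)]
    (hNNS : ∀ s, ∀ l, l.Prime → l ∣ NN (NJ pe r₀ Un q J) v s → l ∈ S) {e : TS O S}
    {B : ℕ} (XV : Lev0 hpO ι hgk hNS (thS (tl (algebraMap (ZMod p) (ResidueField O)) W) S) v A m c
      e B)
    (heok : haveI := XV.hH; EOK hNNS hNS (HQ XV.hvN c)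
      (thS (tl (algebraMap (ZMod p) (ResidueField O)) W) S) e)
    (hmod : W.IsResiduallyModularOfLevel p (baseN pe r₀ Un))
    {s : TS O S} (hNJS : ∀ l, l.Prime → l ∣ NJ pe r₀ Un q J → l ∈ S) (hs : phiG O hNJS s = 0)
    {Fr : IS S → GQ} {Pl : IS S → ValuationSubring Ω}
    (hPl : ∀ l : IS S, (Pl l).LiesOverPrime l.1)
    (hFr : ∀ l : IS S, (Pl l).IsFrobeniusAt (Fr l) l.1) :
    haveI := XV.hH
    haveI := XV.nt
    haveI := XV.fr
    ∀ (L : ∀ i, LocW p (v i) (A i) (XV.hg.R hgk)) (y : YH (HQ XV.hvN c) hNS e),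
      hat XV.hg Fr s • y ∈ augS (YH (HQ XV.hvN c) hNS e) fun i => (L i).η (L i).σ₀ := by
  haveI := XV.hH
  haveI := XV.nt
  haveI := XV.fr
  intro L y
  exact ctl hpO hp2 ι hgk (D.three_le J) (Finset.finite_toSet S₀) D.p_mem (D.hNS₀ J)
    (WM.isPseudoRep _ ρ) (isLocConst_tr h _)
    (fun l hl hlS A hA τ hτ => hfr h _ D.p_mem (fun _ hl hS => D.good hl hS) l hl hlS A hA τ hτ)
    (exists_com h _ hp2) hinj hvS hmc hc hm hv hN hSS hNS XV.hvN hNNS heok XV.hg L hNJS hs hPl hFr y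

end ctl

section abs

variable {O : Type} [CommRing O] [IsDomain O] [IsLocalRing O] [IsNoetherianRing O]
  [IsAdicComplete (maximalIdeal O) O] {p : ℕ} [hp : Fact p.Prime]
  {hpO : (p : O) ∈ maximalIdeal O} [Invertible (2 : O)] {ι : AlgebraicClosure ℚ →+* ℂ}
  {ρb : GQ →* M2 (ResidueField O)} {g₀ k₀ : GQ} {hgk : HG.IrrAt (fun g => (ρb g).trace) g₀ k₀}
  {ϖ : O} {r g t B : ℕ} {ty : Fin t → Ty} {q : Fin t → ℕ} {ε : Fin t → ℤ} {n : ℕ}
  {v : Fin r → ℕ} {Av : Fin r → ValuationSubring Ω} {m c : Fin r → ℕ}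
  {T' Y' : Type} [CommRing T'] [Algebra O T'] [AddCommGroup Y'] [Module O Y']
  [Module.Finite O Y'] [Module.Free O Y'] [Nontrivial Y'] {S' : Set ℕ}
  {ψ' : T' →ₐ[O] Module.End O Y'} {θ' : T' →ₐ[O] ResidueField O} {ρ' : GQ →* Module.End O Y'}
  (hj : HG hpO S' (fun g => (ρb g).trace) ψ' θ' ρ')

include hgk in
/-- RLev, for concrete levels and an abstract joint ring -/
theorem rlev_abs (hmax : maximalIdeal O = Ideal.span {ϖ}) (hm : ∀ i, n ≤ m i)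
    {N NM : ℕ} [NeZero N] [NeZero NM] {S : Set ℕ}
    {hNS : ∀ l, l.Prime → l ∣ N → l ∈ S} {hNMS : ∀ l, l.Prime → l ∣ NM → l ∈ S}
    {θ : TS O S →ₐ[O] ResidueField O} {e : TS O S}
    (XV : Lev0 hpO ι hgk hNS θ v Av m c e B) (XM : Lev0 hpO ι hgk hNMS θ v Av m c e B)
    (XU : Fin t → LM hpO hgk v Av m B)
    {Fr : Fin t → GQ} (I : ∀ j, IhQ (XU j) (LM.of XV) (q j) (Fr j)) (u : GMi (LM.of XM) (LM.of XV)) :
    haveI := XV.hH; haveI := XV.nt; haveI := XV.fr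
    haveI := XM.hH; haveI := XM.nt; haveI := XM.fr
    ∀ (φ₁ : hj.TT →ₐ[O] XV.hg.TT) (_ : ∀ g, φ₁ (hj.tt g) = XV.hg.tt g)
    (_ : ∀ g, (hj.R hgk g).map (φ₁ : hj.TT →+* XV.hg.TT) = XV.hg.R hgk g)
    {ρW : GQ →* M2 O} (φ₂ : hj.TT →ₐ[O] O) (_ : ∀ g, φ₂ (hj.tt g) = (ρW g).trace)
    (_ : ∀ g, (hj.R hgk g).map (φ₂ : hj.TT →+* O) = ρW g)
    (_ : ∀ y : Y', (p : O) • y = 0 → y = 0)
    {Fv : Fin r → GQ} (_ : ∀ i, TWp p (fun g => (ρb g).trace) (v i) (Av i) (Fv i))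
    (_ : ∀ i, ∀ σ ∈ (Av i).inertiaSubgroupIn ℚ, ρW σ = 1)
    {A₀ : ℕ → ValuationSubring Ω} {vv : Fin t → Fin 2 → O} {σ₀ : Fin t → GQ}
    {Qj : Fin t → Matrix (Fin 2) (Fin 2) hj.TT}
    (_ : redR (hj.R hgk) hj.theta.toRingHom = ρb)
    (_ : (2 : ResidueField O) ≠ 0)
    (_ : NmH hj hgk q ty ε A₀ Fr vv)
    (_ : FrD hj hgk q ty A₀ Fr vv σ₀ Qj)
    (_ : ∀ j, ∀ σ ∈ (A₀ (q j)).inertiaSubgroupIn ℚ, XM.hg.R hgk σ = 1)
    (_ : ∀ j, (ρW (Fr j)).trace = ε j * (q j + 1))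
    (_ : ∀ j, ∀ σ ∈ (A₀ (q j)).inertiaSubgroupIn ℚ,
      (ρW σ - 1) * (ρW (Fr j) - (ε j : O) • (1 : Matrix (Fin 2) (Fin 2) O)) = 0)
    (z : Fin g → hj.TT) (_ : ∀ i, z i ∈ maximalIdeal hj.TT)
    (_ : maximalIdeal hj.TT ≤
      Ideal.span {algebraMap O hj.TT ϖ} ⊔ Ideal.span (Set.range z) ⊔
      Ideal.span (parS q ty ε (PhiJ hj hgk ty Fr vv Qj)
        (ZG.NJ hj hgk ty Fr vv σ₀ Qj)) ⊔ maximalIdeal hj.TT ^ 2)
    {κ : Type} (Fκ : κ → GQ) (s : MvPolynomial κ O) {c' : O}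
    (_ : MvPolynomial.aeval (fun l => (ρW (Fκ l)).trace) s = c')
    (_ : ∀ L : ∀ i, LocW p (v i) (Av i) (XV.hg.R hgk), ∀ y : YH (HQ XV.hvN c) hNS e,
      (MvPolynomial.aeval (fun l => XV.hg.tt (Fκ l)) s : XV.hg.TT) • y ∈
        augS (YH (HQ XV.hvN c) hNS e) (fun i => (L i).η (L i).σ₀)),
    Nonempty (RLev O ϖ p r g t B ty q ε c' n) := by
  haveI := XV.hH
  haveI := XV.nt
  haveI := XV.fr
  haveI := XM.hH
  haveI := XM.nt
  haveI := XM.fr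
  intro φ₁ t1 g1 ρW φ₂ t2 g2 hreg Fv hv hWv A₀ vv σ₀ Qj hred h2k H F hMu hWt hWs z hz hgen κ Fκ s
    c' ha hctl
  have ha1 : φ₁ (MvPolynomial.aeval (fun l => hj.tt (Fκ l)) s) =
      (MvPolynomial.aeval (fun l => XV.hg.tt (Fκ l)) s : XV.hg.TT) := by
    rw [← AlgHom.comp_apply, MvPolynomial.comp_aeval]
    simp only [t1]
  have ha2 : φ₂ (MvPolynomial.aeval (fun l => hj.tt (Fκ l)) s) = c' := by
    rw [← AlgHom.comp_apply, MvPolynomial.comp_aeval]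
    simp only [t2]
    exact ha
  exact exists_RLev_of (hgk := hgk) (ρb := ρb) hj hmax hm (LM.of XV) XU (LM.of XM) I u φ₁ t1 g1
    φ₂ g2 hreg hv hWv hred h2k H F hMu hWt hWs z hz hgen
    (MvPolynomial.aeval (fun l => hj.tt (Fκ l)) s) ha2 (fun L y => by
      have h3 := hctl L y
      rw [← ha1] at h3
      exact h3)

end abs

namespace BData

variable {W : WeierstrassCurve ℤ} {p r₀ : ℕ} [hp : Fact p.Prime] {ρ : 𝒢 →* M2 (ZMod p)}
  {k : Type} [Field k] [Algebra (ZMod p) k] {t : ℕ} {q : Fin t → ℕ} {ty : Fin t → Ty}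
  {S₀ Un : Finset ℕ} {pe : ℕ} (D : BData W p r₀ ρ k q ty S₀ Un pe)

include D

/-- the part of the level prime to a bad prime -/
theorem split_bad {l : ℕ} (hl : l.Prime) (hlg : ¬ W.IsGoodPrimeFor l) (hlp : l ≠ p) {r : ℕ}
    {v : Fin r → ℕ} (hv : ∀ i, (v i).Prime) (hvg : ∀ i, W.IsGoodPrimeFor (v i)) :
    ∃ M, NJ pe r₀ Un q Finset.univ * ∏ i, v i = l * M ∧ ¬ l ∣ M ∧ 3 ≤ M ∧ ∀ i, v i ∣ M := by
  obtain ⟨K, hK⟩ := D.bad_dvd hl hlg hlp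
  have hlK : ¬ l ∣ K := by
    rintro ⟨c, rfl⟩
    exact Nat.squarefree_iff_prime_squarefree.1 (D.sqfree Finset.univ) l hl ⟨c, by rw [hK]; ring⟩
  have hlv : ∀ i, l ≠ v i := fun i e => hlg (e ▸ hvg i)
  refine ⟨K * ∏ i, v i, by rw [hK]; ring, fun hd => ?_, ?_, fun i => ?_⟩
  · rcases (hl.dvd_mul.1 hd) with hd | hd
    · exact hlK hd
    · obtain ⟨i, -, hi⟩ := (hl.prime.dvd_finsetProd_iff _).1 hd
      exact hlv i ((Nat.prime_dvd_prime_iff_eq hl (hv i)).1 hi)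
  · have hr : r₀ ∣ K := by
      have h1 := r_dvd pe r₀ Un q Finset.univ
      rw [hK] at h1
      refine (Nat.Coprime.dvd_mul_left ?_).1 h1
      exact (Nat.coprime_primes D.hr hl).2 fun e => hlg (e ▸ D.hrg)
    have hK0 : 0 < K := Nat.pos_of_ne_zero fun h0 => (D.pos Finset.univ).ne' (by
      rw [hK, h0, mul_zero])
    have h2 := Nat.le_of_dvd hK0 hr
    have h3 := D.hr12
    have h4 : 0 < ∏ i, v i := Finset.prod_pos fun i _ => (hv i).pos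
    have h5 : K ≤ K * ∏ i, v i := Nat.le_mul_of_pos_right _ h4
    omega
  · exact (Finset.dvd_prod_of_mem v (Finset.mem_univ i)).trans (dvd_mul_left _ _)

end BData

section inner

variable {W : WeierstrassCurve ℤ} {p r₀ : ℕ} [hp : Fact p.Prime] {ρ : 𝒢 →* M2 (ZMod p)}
  (h : ResW W p ρ)
  {O : Type} [CommRing O] [IsDomain O] [IsDiscreteValuationRing O]
  [IsAdicComplete (maximalIdeal O) O] [CharZero O] [Finite (ResidueField O)]
  (hp2 : p ≠ 2) {hpO : (p : O) ∈ maximalIdeal O} {ϖ : O} (hmax : maximalIdeal O = Ideal.span {ϖ})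
  {ι : AlgebraicClosure ℚ →+* ℂ} [Invertible (2 : O)] [Algebra (ZMod p) (ResidueField O)]
  {g₀ k₀ : 𝒢}
  {hgk : HG.IrrAt (fun g => (extW ρ (algebraMap (ZMod p) (ResidueField O)) g).trace) g₀ k₀}
  {ρW : 𝒢 →* M2 O} (hW : WPt.WRep W p hpO ρ (algebraMap (ZMod p) (ResidueField O)) g₀ ρW)
  {t : ℕ} {q : Fin t → ℕ} {ty : Fin t → Ty} {S₀ Un : Finset ℕ} {pe : ℕ}
  (D : BData W p r₀ ρ (ResidueField O) q ty S₀ Un pe)
  {ε : Fin t → ℤ} {A₀ : ℕ → ValuationSubring Ω} {Φ : Fin t → 𝒢} {vv : Fin t → Fin 2 → O}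
  (SD : ZG.SDat W p r₀ ρ q ty S₀ Un ρW ε A₀ Φ vv)

include D in
theorem notS₀_good {l : ℕ} (hl : l.Prime) (h : l ∉ (S₀ : Set ℕ)) :
    W.IsGoodPrimeFor l ∧ l ≠ p := ⟨D.good hl h, fun e => h (e ▸ D.p_mem)⟩

include h hp2 hmax hW D SD in
/-- **The data at a level.** -/
theorem rlev_inner [NeZero (NJ pe r₀ Un q Finset.univ)]
    {r : ℕ} {v : Fin r → ℕ} {A : Fin r → ValuationSubring Ω} {Fv : Fin r → GQ}
    (hinj : Function.Injective v) (hvS : ∀ i, v i ∉ (S₀ : Set ℕ))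
    {m c : Fin r → ℕ} (hmc : ∀ i, v i - 1 = p ^ m i * c i) (hc : ∀ i, ¬ p ∣ c i)
    (hm : ∀ i, 1 ≤ m i) {n : ℕ} (hmn : ∀ i, n ≤ m i)
    (hv : ∀ i, TWp p (fun g => (extW ρ (algebraMap (ZMod p) (ResidueField O)) g).trace) (v i)
      (A i) (Fv i))
    {N NM : ℕ} [NeZero N] [NeZero NM] (hN : N = NJ pe r₀ Un q Finset.univ * ∏ i, v i)
    (hNM : NM = NJ pe r₀ Un q ∅ * ∏ i, v i) {S : Set ℕ}
    (hSS : S = (S₀ : Set ℕ) ∪ Set.range v)
    {hNS : ∀ l, l.Prime → l ∣ N → l ∈ S} {hNMS : ∀ l, l.Prime → l ∣ NM → l ∈ S}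
    [∀ s : Finset (Fin r), NeZero (NN (NJ pe r₀ Un q Finset.univ) v s)]
    (hNNS : ∀ s, ∀ l, l.Prime → l ∣ NN (NJ pe r₀ Un q Finset.univ) v s → l ∈ S) {e : TS O S}
    {B : ℕ} (XV : Lev0 hpO ι hgk hNS (thS (tl (algebraMap (ZMod p) (ResidueField O)) W) S) v A m c
      e B)
    (XM : Lev0 hpO ι hgk hNMS (thS (tl (algebraMap (ZMod p) (ResidueField O)) W) S) v A m c
      e B)
    (heok : haveI := XV.hH; EOK hNNS hNS (HQ XV.hvN c)
      (thS (tl (algebraMap (ZMod p) (ResidueField O)) W) S) e)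
    (hmod : W.IsResiduallyModularOfLevel p (baseN pe r₀ Un))
    (XU : Fin t → LM hpO hgk v A m B)
    (I : ∀ j, IhQ (XU j) (LM.of XV) (q j) (Φ j)) (u : GMi (LM.of XM) (LM.of XV))
    {Sf : Finset ℕ} (hSf : ∀ l, l ∈ Sf ↔ l ∈ S)
    {g : ℕ}
    (hgen : haveI := XV.hH; haveI := XV.nt; haveI := XV.fr
      ∀ (P : PtD hpO S (psiY (HQ XV.hvN c) hNS e)
        (thetaD (thS (tl (algebraMap (ZMod p) (ResidueField O)) W) S) N)
        (rhoY hpO ι (HQ XV.hvN c) hNS e) (chiW (aW O W) S N) ρW) (σ₀ : Fin t → GQ)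
        (Qj : Fin t → Matrix (Fin 2) (Fin 2) (joint XV.hg P).TT),
        LvH (joint XV.hg P) hgk ϖ q ty ε A₀ Φ vv S₀ Un Sf →
        FrD (joint XV.hg P) hgk q ty A₀ Φ vv σ₀ Qj →
        ∃ z : Fin g → (joint XV.hg P).TT, (∀ i, z i ∈ maximalIdeal (joint XV.hg P).TT) ∧
          maximalIdeal (joint XV.hg P).TT ≤
            Ideal.span {algebraMap O (joint XV.hg P).TT ϖ} ⊔ Ideal.span (Set.range z) ⊔
            Ideal.span (parS q ty ε (PhiJ (joint XV.hg P) hgk ty Φ vv Qj)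
              (ZG.NJ (joint XV.hg P) hgk ty Φ vv σ₀ Qj)) ⊔
            maximalIdeal (joint XV.hg P).TT ^ 2)
    {s : TS O S} (hNJS : ∀ l, l.Prime → l ∣ NJ pe r₀ Un q Finset.univ → l ∈ S)
    (hs : phiG O hNJS s = 0) :
    Nonempty (RLev O ϖ p r g t B ty q ε (MvPolynomial.aeval (fun i : IS S => aW O W i) s) n) := by
  haveI := XV.hH
  haveI := XV.nt
  haveI := XV.fr
  set κ := algebraMap (ZMod p) (ResidueField O) with hκ
  have hS₀S : ∀ l, l ∈ (S₀ : Set ℕ) → l ∈ S := fun l hl => by rw [hSS]; exact Or.inl hl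
  have hpS : p ∈ S := hS₀S _ D.p_mem
  have hgood : ∀ l, l.Prime → l ∉ S → W.IsGoodPrimeFor l := fun l hl hlS =>
    D.good hl fun h => hlS (hS₀S l h)
  have hJW : JT.WRep hpO S (aW O W) ρW := jt_of_wrep hW hpS hgood
  have P := ptD_YH ι (hNS := hNS) (H := HQ XV.hvN c) hpS hp2 XV.hΔ e hJW
    (fun i => residue_aW κ W i)
  obtain ⟨φ₁, t1, h1⟩ := exists_pr1 XV.hg P
  obtain ⟨φ₂, t2, h2⟩ := exists_pr2 XV.hg P
  have g1 : ∀ g, ((joint XV.hg P).R hgk g).map φ₁ = XV.hg.R hgk g :=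
    R_map (joint XV.hg P) hgk XV.hg φ₁ t1
  have g2 : ∀ g, ((joint XV.hg P).R hgk g).map φ₂ = ρW g :=
    R_map_of (joint XV.hg P) hgk φ₂ ρW t2 hW.conj hW.g0
  have hvp : ∀ i, v i ≠ p := fun i e => hvS i (e ▸ D.p_mem)
  have hvg : ∀ i, W.IsGoodPrimeFor (v i) := fun i => D.good (hv i).prime (hvS i)
  have hqv : ∀ j, ∀ i, q j ≠ v i := fun j i e => D.bad_q j (e ▸ hvg i)
  -- local properties of the level
  have hunr : ∀ l : ℕ, l.Prime → l ∉ Sf → ∀ A' : ValuationSubring Ω, A'.LiesOverPrime l →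
      ∀ σ ∈ A'.inertiaSubgroupIn ℚ, XV.hg.R hgk σ = 1 := fun l hl hlS A' hA' σ hσ =>
    ZG.lev_unr XV hl (fun hd => hlS ((hSf l).2 (hNS l hl hd)))
      (fun e => hlS ((hSf l).2 (e ▸ hpS))) hA' hσ
  have hsq : ∀ l : ℕ, l.Prime → ¬ W.IsGoodPrimeFor l → l ≠ p → ∀ A' : ValuationSubring Ω,
      A'.LiesOverPrime l → ∀ σ ∈ A'.inertiaSubgroupIn ℚ,
        (XV.hg.R hgk σ - 1) * (XV.hg.R hgk σ - 1) = 0 := by
    intro l hl hlg hlp A' hA' σ hσ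
    obtain ⟨M, hM, hlM, hM3, hvM⟩ := D.split_bad hl hlg hlp (v := v) (fun i => (hv i).prime) hvg
    exact ZG.lev_unip hp2 XV hl hlp (hN.trans hM) hlM hM3 hvM hA' hσ
  have L := SD.lvH_joint hmax hW XV.hg P (Sf := Sf) (fun l hl hlS =>
    notS₀_good D hl fun h => hlS ((hSf l).2 (hS₀S l h))) hunr hsq
  obtain ⟨σ₀, Qj, F⟩ := L.H.exists_frD L.hred
  obtain ⟨z, hz, hgen'⟩ := hgen P σ₀ Qj L F
  have hreg : ∀ y : YH (HQ XV.hvN c) hNS e × (Fin 2 → O), (p : O) • y = 0 → y = 0 := by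
    intro y hy
    refine Prod.ext (XV.reg _ (congrArg Prod.fst hy)) (funext fun i => ?_)
    have h3 := congrFun (congrArg Prod.snd hy) i
    exact (mul_eq_zero.1 h3).resolve_left (Nat.cast_ne_zero.2 hp.out.ne_zero)
  have hMu : ∀ j, ∀ σ ∈ (A₀ (q j)).inertiaSubgroupIn ℚ, (LM.of XM).hg.R hgk σ = 1 :=
    fun j σ hσ => ZG.lev_unr XM (D.primeq j) (fun hd => by
      rw [hNM] at hd
      rcases ((D.primeq j).dvd_mul.1 hd) with hd | hd
      · exact absurd ((D.q_dvd_iff ∅ j).1 hd) (Finset.notMem_empty j)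
      · obtain ⟨i, -, hi⟩ := ((D.primeq j).prime.dvd_finsetProd_iff _).1 hd
        exact hqv j i ((Nat.prime_dvd_prime_iff_eq (D.primeq j) (hv i).prime).1 hi))
      (D.q_ne j) (SD.lies _ (D.primeq j)) hσ
  choose Pl hPl using fun l : IS S => exists_liesOverPrime (AlgebraicClosure ℚ) l.2.1
  choose Fr hFr using fun l : IS S => exists_isFrobeniusAt (Pl l) l.2.1 (hPl l)
  have ha2 : MvPolynomial.aeval (fun l : IS S => (ρW (Fr l)).trace) s =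
      MvPolynomial.aeval (fun i : IS S => aW O W i) s := by
    congr 2
    funext l
    exact hJW.trace l l.2.1 l.2.2 (Pl l) (hPl l) (Fr l) (hFr l)
  exact rlev_abs (hgk := hgk) (ρb := extW ρ κ) (joint XV.hg P) hmax hmn XV XM XU I u φ₁ t1 g1
    φ₂ t2 g2 hreg hv (fun i σ hσ => hW.unr (v i) (hv i).prime (hvg i) (hvp i) (A i) (hv i).hA σ hσ)
    L.hred L.hN.two L.H F hMu SD.tr SD.rel z hz hgen' Fr s ha2
    (ctl_W h hp2 D Finset.univ hinj hvS hmc hc hm hv hN hSS hNNS XV heok hmod hNJS hs hPl hFr)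

end inner

end Fermat.Agent.CoreW
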