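import Fermat.Agent.OrdH.O1
import Fermat.Agent.CoreW.Setup
import Fermat.Agent.WPt.Ro

/-!
# Ordinariness at `p` at the Taylor–Wiles levels over a level exactly divisible by `p`
-/

set_option autoImplicit false
set_option linter.unusedSectionVars false
set_option linter.style.haveILetI false

noncomputable section

namespace Fermat.Agent.CoreW

open Matrix IsLocalRing Fermat.Agent.GalRep Fermat.Agent.TW Fermat.Agent.Places Fermat.Agent.Flat
open Fermat.Agent.Cheb Fermat.Agent.KumG Fermat.Agent.MD Fermat.Agent.Sel Fermat.Agent.ImW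
open Fermat.Agent.WM Fermat.Agent.StR Fermat.Agent.JT Fermat.Agent.OrdH
open Fermat.Agent.WPt (sg sg_one mem_dec_of_inertia)

local notation "Ω" => AlgebraicClosure ℚ

local notation "𝒢" => (AlgebraicClosure ℚ) ≃ₐ[ℚ] (AlgebraicClosure ℚ)

/-- the twisting data of a Taylor–Wiles level -/
theorem twl_of {N₀ r N : ℕ} {v : Fin r → ℕ} (hv : ∀ i, (v i).Prime) (hinj : Function.Injective v)
    (hvN₀ : ∀ i, ¬ v i ∣ N₀) (hN₀ : N₀ ≠ 0) [NeZero N] (hN : N = N₀ * ∏ i, v i)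
    (hvN : ∀ i, v i ∣ N) (c : Fin r → ℕ) :
    TwL' N₀ N (N₀ * (∏ i, v i) * ∏ i, v i) (List.ofFn v) (HQ hvN c) where
  ld := ⟨fun x hx => by
      obtain ⟨i, rfl⟩ := List.mem_ofFn.1 hx
      exact hv i, List.nodup_ofFn.2 hinj, fun x hx => by
      obtain ⟨i, rfl⟩ := List.mem_ofFn.1 hx
      exact hvN₀ i, hN₀⟩
  eN := by rw [hN, List.prod_ofFn]
  eN' := by rw [List.prod_ofFn]
  ker u hu := by
    rw [mem_HQ]
    intro i
    have h1 : ZMod.unitsMap (hvN i) u = 1 := by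
      apply Units.ext
      exact hu (v i) (List.mem_ofFn.2 ⟨i, rfl⟩) (hvN i)
    rw [h1, one_pow]

section res

variable {W : WeierstrassCurve ℤ} {p : ℕ} [hp : Fact p.Prime] {ρ : 𝒢 →* M2 (ZMod p)}

/-- residual ordinariness on inertia -/
theorem res_ord (hΔ : W.Δ ≠ 0) (hp2 : p ≠ 2) (h : ResW W p ρ) (hd : (p : ℤ) ∣ W.Δ)
    (hc4 : ¬ (p : ℤ) ∣ W.c₄) {k : Type} [Field k] (κ : ZMod p →+* k) {A : ValuationSubring Ω}
    (hA : A.LiesOverPrime p) {σ τ : 𝒢} (hσ : σ ∈ A.inertiaSubgroupIn ℚ)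
    (hτ : τ ∈ A.inertiaSubgroupIn ℚ) :
    (extW ρ κ σ - κ (cyc p σ) • (1 : M2 k)) * (extW ρ κ τ - 1) = 0 := by
  obtain ⟨χ, ε, hχ⟩ := WPt.res_star hΔ hp2 h hp.out hd hc4
  obtain ⟨hin, -, hst⟩ := hχ A hA
  have h1 := congrArg κ.mapMatrix (hst σ (mem_dec_of_inertia hσ) τ (mem_dec_of_inertia hτ))
  rw [hin σ hσ, hin τ hτ, sg_one, one_mul, one_smul, map_mul, map_sub, map_sub, map_one,
    _root_.map_zero] at h1
  have e1 : ∀ c : ZMod p, κ.mapMatrix (c • (1 : M2 (ZMod p))) = κ c • (1 : M2 k) := fun c => by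
    ext i j
    rw [RingHom.mapMatrix_apply, Matrix.map_apply, Matrix.smul_apply, Matrix.smul_apply,
      smul_eq_mul, smul_eq_mul, map_mul, Matrix.one_apply, Matrix.one_apply]
    split_ifs <;> simp
  rw [e1] at h1
  exact h1

variable {O : Type} [CommRing O] [IsLocalRing O] [IsNoetherianRing O]
  [IsAdicComplete (maximalIdeal O) O] (hpO : (p : O) ∈ maximalIdeal O)

/-- residual ordinariness in terms of traces -/
theorem res_tr (hΔ : W.Δ ≠ 0) (hp2 : p ≠ 2) (h : ResW W p ρ) (hd : (p : ℤ) ∣ W.Δ)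
    (hc4 : ¬ (p : ℤ) ∣ W.c₄) [Algebra (ZMod p) (ResidueField O)] {A : ValuationSubring Ω}
    (hA : A.LiesOverPrime p) {σ τ : 𝒢} (hσ : σ ∈ A.inertiaSubgroupIn ℚ)
    (hτ : τ ∈ A.inertiaSubgroupIn ℚ) (g : 𝒢) :
    (extW ρ (algebraMap (ZMod p) (ResidueField O)) (σ * τ * g)).trace -
      (extW ρ (algebraMap (ZMod p) (ResidueField O)) (σ * g)).trace -
      residue O (cycO hpO σ) * (extW ρ (algebraMap (ZMod p) (ResidueField O)) (τ * g)).trace +
        residue O (cycO hpO σ) * (extW ρ (algebraMap (ZMod p) (ResidueField O)) g).trace = 0 := by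
  set κ := algebraMap (ZMod p) (ResidueField O) with hκ
  have h1 := res_ord hΔ hp2 h hd hc4 κ hA hσ hτ
  have h2 : residue O (cycO hpO σ) = κ (cyc p σ) := ZG.residue_cycO hpO σ
  have h3 := congrArg (fun X => (X * extW ρ κ g).trace) h1
  simp only [zero_mul, Matrix.trace_zero] at h3
  rw [h2, ← h3]
  have h4 : (extW ρ κ σ - κ (cyc p σ) • (1 : M2 (ResidueField O))) * (extW ρ κ τ - 1) *
      extW ρ κ g = extW ρ κ (σ * τ * g) - extW ρ κ (σ * g) - κ (cyc p σ) • extW ρ κ (τ * g) +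
      κ (cyc p σ) • extW ρ κ g := by
    rw [map_mul, map_mul, map_mul, map_mul]
    simp only [sub_mul, mul_sub, smul_mul_assoc, one_mul, mul_one, mul_assoc]
    abel
  rw [h4, Matrix.trace_add, Matrix.trace_sub, Matrix.trace_sub, Matrix.trace_smul,
    Matrix.trace_smul, smul_eq_mul, smul_eq_mul]

end res

section lev

variable {W : WeierstrassCurve ℤ} {p : ℕ} [hp : Fact p.Prime] {ρ : 𝒢 →* M2 (ZMod p)}
  (hΔ : W.Δ ≠ 0) (hp2 : p ≠ 2) (h : ResW W p ρ) (hd : (p : ℤ) ∣ W.Δ) (hc4 : ¬ (p : ℤ) ∣ W.c₄)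
  {O : Type} [CommRing O] [IsDomain O] [IsDiscreteValuationRing O]
  [IsAdicComplete (maximalIdeal O) O] [CharZero O] [Finite (ResidueField O)]
  {hpO : (p : O) ∈ maximalIdeal O}
  {ι : AlgebraicClosure ℚ →+* ℂ} [Invertible (2 : O)] [Algebra (ZMod p) (ResidueField O)]
  {g₀ k₀ : 𝒢}
  (hgk : HG.IrrAt (fun g => (extW ρ (algebraMap (ZMod p) (ResidueField O)) g).trace) g₀ k₀)

include hΔ hp2 h hd hc4 in
/-- **Ordinariness at `p` at the Taylor–Wiles levels.** -/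
theorem hord_HG {M' r N : ℕ} {v : Fin r → ℕ} (hv : ∀ i, (v i).Prime) (hinj : Function.Injective v)
    (hvN₀ : ∀ i, ¬ v i ∣ p * M') (hM' : M' ≠ 0) (hpM : ¬ p ∣ M') [NeZero N]
    (hN : N = p * M' * ∏ i, v i) {hvN : ∀ i, v i ∣ N} {c : Fin r → ℕ}
    [hH : Fact ((-1 : (ZMod N)ˣ) ∈ HQ hvN c)] {S : Set ℕ} {hNS : ∀ l, l.Prime → l ∣ N → l ∈ S}
    {e : TS O S} (hΔH : IsPGroup p (DG N (HQ hvN c)))
    [Module.Free O (YH (HQ hvN c) hNS e)] [Nontrivial (YH (HQ hvN c) hNS e)]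
    {θ : TD O S N →ₐ[O] ResidueField O}
    (hg : HG hpO S (fun g => (extW ρ (algebraMap (ZMod p) (ResidueField O)) g).trace)
      (psiY (HQ hvN c) hNS e) θ (rhoY hpO ι (HQ hvN c) hNS e))
    {A : ValuationSubring Ω} (hA : A.LiesOverPrime p) {σ τ : 𝒢}
    (hσ : σ ∈ A.inertiaSubgroupIn ℚ) (hτ : τ ∈ A.inertiaSubgroupIn ℚ) :
    (hg.R hgk τ - algebraMap O hg.TT (cycO hpO τ) • (1 : Matrix (Fin 2) (Fin 2) hg.TT)) *
        (hg.R hgk σ - 1) = 0 := by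
  have hprod : ∏ i, v i ≠ 0 := Finset.prod_ne_zero_iff.2 fun i _ => (hv i).ne_zero
  have hN₀ : p * M' ≠ 0 := mul_ne_zero hp.out.ne_zero hM'
  have V := twl_of hv hinj hvN₀ hN₀ hN hvN c
  haveI : NeZero (p * M' * (∏ i, v i) * ∏ i, v i) :=
    ⟨mul_ne_zero (mul_ne_zero hN₀ hprod) hprod⟩
  have hpv : ¬ p ∣ ∏ i, v i := by
    intro hd
    obtain ⟨i, -, hi⟩ := (hp.out.prime.dvd_finsetProd_iff _).1 hd
    rw [Nat.prime_dvd_prime_iff_eq hp.out (hv i)] at hi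
    exact hvN₀ i (hi ▸ dvd_mul_right p M')
  have hpM' : ¬ p ∣ M' * (∏ i, v i) * ∏ i, v i := by
    intro hd
    rcases (hp.out.dvd_mul).1 hd with hd | hd
    · rcases (hp.out.dvd_mul).1 hd with hd | hd
      · exact hpM hd
      · exact hpv hd
    · exact hpv hd
  have hpS : p ∈ S := hNS p hp.out (hN ▸ (dvd_mul_right p M').mul_right _)
  exact ord_R V hg (M' := M' * (∏ i, v i) * ∏ i, v i) (by ring) hpM' hp2 (odd_card hp2 hΔH) hpS hA
    (fun σ hσ τ hτ g => res_tr hpO hΔ hp2 h hd hc4 hA hσ hτ g) hgk hτ hσ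

end lev

end Fermat.Agent.CoreW
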