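import Fermat.Agent.CoreW.Inner
import Fermat.Agent.AsmF.FamW

/-!
# From the Taylor–Wiles primes to the data at the levels
-/

set_option autoImplicit false
set_option linter.unusedSectionVars false
set_option linter.style.haveILetI false

noncomputable section

namespace Fermat.Agent.CoreW

open Matrix IsLocalRing Fermat.Agent.GalRep Fermat.Agent.TW Fermat.Agent.Places Fermat.Agent.Flat
open Fermat.Agent.Cheb Fermat.Agent.KumG Fermat.Agent.MD Fermat.Agent.Sel Fermat.Agent.ImW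
open Fermat.Agent.WM Fermat.Agent.StR Fermat.Agent.JT Fermat.Agent.AsmL Fermat.Agent.E2N
open Fermat.Agent.AsmF (HAux haux_W bnd exists_famW)
open Fermat.Agent.ZG (NData SDat LvH FrD NmH PhiJ parS TWn NumH)

local notation "Ω" => AlgebraicClosure ℚ

local notation "𝒢" => (AlgebraicClosure ℚ) ≃ₐ[ℚ] (AlgebraicClosure ℚ)

variable {W : WeierstrassCurve ℤ} {p r₀ : ℕ} [hp : Fact p.Prime] {ρ : 𝒢 →* M2 (ZMod p)}
  (h : ResW W p ρ)
  {O : Type} [CommRing O] [IsDomain O] [IsDiscreteValuationRing O]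
  [IsAdicComplete (maximalIdeal O) O] [CharZero O] [Finite (ResidueField O)]
  (hp2 : p ≠ 2) (hpO : (p : O) ∈ maximalIdeal O) {ϖ : O} (hmax : maximalIdeal O = Ideal.span {ϖ})
  (ι : AlgebraicClosure ℚ →+* ℂ) [Invertible (2 : O)] [Algebra (ZMod p) (ResidueField O)]
  {g₀ k₀ : 𝒢}
  (hgk : HG.IrrAt (fun g => (extW ρ (algebraMap (ZMod p) (ResidueField O)) g).trace) g₀ k₀)
  {ρW : 𝒢 →* M2 O} (hW : WPt.WRep W p hpO ρ (algebraMap (ZMod p) (ResidueField O)) g₀ ρW)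
  {t : ℕ} {q : Fin t → ℕ} {ty : Fin t → Ty} {S₀ Un : Finset ℕ} {pe : ℕ}
  (D : BData W p r₀ ρ (ResidueField O) q ty S₀ Un pe)
  {ε : Fin t → ℤ} {A₀ : ℕ → ValuationSubring Ω} {Φ : Fin t → 𝒢} {vv : Fin t → Fin 2 → O}
  (SD : ZG.SDat W p r₀ ρ q ty S₀ Un ρW ε A₀ Φ vv)

include h in
/-- a Taylor–Wiles prime, from the Selmer side -/
theorem TWp_of {n v : ℕ} (hn : 1 ≤ n) {A : ValuationSubring Ω} {Φ : 𝒢}
    {κ : ZMod p →+* ResidueField O}
    (hsplit : ∃ a b : ResidueField O, (extW ρ κ Φ).trace = a + b ∧ (extW ρ κ Φ).det = a * b)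
    (hpO : (p : O) ∈ maximalIdeal O)
    (hv : TWd p (extW ρ κ) n v A Φ) (hvg : W.IsGoodPrimeFor v) (hvp : v ≠ p) :
    TWp p (fun g => (extW ρ κ g).trace) v A Φ := by
  have hpv : p ∣ v - 1 := (dvd_pow_self _ (by omega)).trans hv.dvd
  have hv1 : 1 ≤ v := hv.prime.one_le
  have hp0 : ((p : ℕ) : ResidueField O) = 0 := by
    rw [← map_natCast (residue O)]
    exact (IsLocalRing.residue_eq_zero_iff _).2 hpO
  have hone : (v : ResidueField O) = 1 := by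
    obtain ⟨c, hc⟩ := hpv
    have h1 : v = 1 + p * c := by omega
    rw [h1, Nat.cast_add, Nat.cast_mul, hp0, zero_mul, add_zero, Nat.cast_one]
  refine ⟨hv.prime, Ne.symm hvp, hv.lies, hv.frob, hone, fun σ hσ g => ?_, ?_⟩
  · rw [map_mul, ext_unr h κ hv.prime hvg hvp hv.lies hσ, mul_one]
  · obtain ⟨a, b, h1, h2⟩ := hsplit
    have h3 : (extW ρ κ Φ).det = 1 := by
      rw [ext_det, h.det, cyc_frobenius ((Nat.coprime_primes hv.prime hp.out).2 hvp) hv.lies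
        hv.frob, map_natCast, hone]
    refine ⟨a, b, h1.symm, by rw [← h2, h3], ?_⟩
    rintro rfl
    apply hv.dsc
    rw [dsc, h1, h2]
    ring

include D in
/-- Taylor–Wiles numbers -/
theorem exists_mc {n v : ℕ} (hv : v.Prime) (hvn : p ^ n ∣ v - 1) :
    ∃ m c, v - 1 = p ^ m * c ∧ ¬ p ∣ c ∧ n ≤ m := by
  have h1 : v - 1 ≠ 0 := by have := hv.two_le; omega
  obtain ⟨m, c, hc, hmc⟩ := Nat.exists_eq_pow_mul_and_not_dvd h1 p hp.out.ne_one
  refine ⟨m, c, hmc, hc, ?_⟩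
  by_contra hcon
  have h2 : p ^ (m + 1) ∣ v - 1 := (pow_dvd_pow p (by omega)).trans hvn
  rw [hmc, pow_succ] at h2
  exact hc (Nat.dvd_of_mul_dvd_mul_left (pow_pos hp.out.pos m) h2)

variable (hΔ : W.Δ ≠ 0) (hirr : W.ModRepIsIrreducible p)

include h hp2 hmax hW D SD hΔ hirr in
/-- **The data at all levels** -/
theorem step_aux (hmod : W.IsResiduallyModularOfLevel p (baseN pe r₀ Un))
    {Lp : ∀ A : ValuationSubring Ω, Submodule (ResidueField O)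
      (A.decompositionSubgroup ℚ → sl (ResidueField O))} {r g : ℕ}
    (hTW : ∀ n, 1 ≤ n → ∀ S' : Set ℕ, S'.Finite →
      Nonempty (TWn p (extW ρ (algebraMap (ZMod p) (ResidueField O))) S₀ A₀ Lp q Un r g n S'))
    (hgen : ∀ {n : ℕ} (_ : 1 ≤ n) {S' : Set ℕ}
      (X : TWn p (extW ρ (algebraMap (ZMod p) (ResidueField O))) S₀ A₀ Lp q Un r g n S')
      {m c : Fin r → ℕ} (_ : ∀ i, X.qv i - 1 = p ^ m i * c i) (_ : ∀ i, ¬ p ∣ c i)
      (_ : ∀ i, 1 ≤ m i)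
      (_ : ∀ i, TWp p (fun g => (extW ρ (algebraMap (ZMod p) (ResidueField O)) g).trace) (X.qv i)
        (X.A i) (X.Φ i))
      {N : ℕ} [NeZero N] (_ : N = NJ pe r₀ Un q Finset.univ * ∏ i, X.qv i)
      {S : Set ℕ} (_ : S = (S₀ : Set ℕ) ∪ Set.range X.qv)
      {hNS : ∀ l, l.Prime → l ∣ N → l ∈ S} {e : TS O S} {B : ℕ}
      (XV : Lev0 hpO ι hgk hNS (thS (tl (algebraMap (ZMod p) (ResidueField O)) W) S) X.qv X.A m c
        e B),
      haveI := XV.hH; haveI := XV.nt; haveI := XV.fr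
      ∀ (P : PtD hpO S (psiY (HQ XV.hvN c) hNS e)
        (thetaD (thS (tl (algebraMap (ZMod p) (ResidueField O)) W) S) N)
        (rhoY hpO ι (HQ XV.hvN c) hNS e) (chiW (aW O W) S N) ρW) (σ₀ : Fin t → GQ)
        (Qj : Fin t → Matrix (Fin 2) (Fin 2) (joint XV.hg P).TT),
        LvH (joint XV.hg P) hgk ϖ q ty ε A₀ Φ vv S₀ Un X.S →
        FrD (joint XV.hg P) hgk q ty A₀ Φ vv σ₀ Qj →
        ∃ z : Fin g → (joint XV.hg P).TT, (∀ i, z i ∈ maximalIdeal (joint XV.hg P).TT) ∧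
          maximalIdeal (joint XV.hg P).TT ≤
            Ideal.span {algebraMap O (joint XV.hg P).TT ϖ} ⊔ Ideal.span (Set.range z) ⊔
            Ideal.span (parS q ty ε (PhiJ (joint XV.hg P) hgk ty Φ vv Qj)
              (ZG.NJ (joint XV.hg P) hgk ty Φ vv σ₀ Qj)) ⊔
            maximalIdeal (joint XV.hg P).TT ^ 2)
    (s : TS O (S₀ : Set ℕ))
    [NeZero (NJ pe r₀ Un q Finset.univ)]
    (hs : phiG O (D.hNS₀ Finset.univ) s = 0) :
    ∃ B : ℕ, ∀ n, Nonempty (RLev O ϖ p r g t B ty q ε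
      (MvPolynomial.aeval (fun i : IS (S₀ : Set ℕ) => aW O W i) s) n) := by
  classical
  haveI hNJ0 : ∀ J, NeZero (NJ pe r₀ Un q J) := D.neZero
  refine ⟨bnd O pe r₀ Un q r, fun n => ?_⟩
  obtain ⟨X⟩ := hTW (n + 1) (by omega) {l | ∃ i ∈ s.vars, (i : ℕ) = l}
    ((s.vars.finite_toSet.image (fun i : IS (S₀ : Set ℕ) => (i : ℕ))).subset (by
      rintro l ⟨i, hi, rfl⟩
      exact ⟨i, hi, rfl⟩))
  have hvS : ∀ i, X.qv i ∉ (S₀ : Set ℕ) := fun i hi => X.notS₀ i hi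
  have hvpr : ∀ i, (X.qv i).Prime := fun i => (X.tw i).prime
  have hvg : ∀ i, W.IsGoodPrimeFor (X.qv i) ∧ X.qv i ≠ p := fun i =>
    notS₀_good D (hvpr i) (hvS i)
  have hv : ∀ i, TWp p (fun g => (extW ρ (algebraMap (ZMod p) (ResidueField O)) g).trace)
      (X.qv i) (X.A i) (X.Φ i) := fun i =>
    TWp_of h (by omega : 1 ≤ n + 1) (SD.nd.num.split _) hpO (X.tw i) (hvg i).1 (hvg i).2
  choose m c hmc hc hm using fun i => exists_mc D (hvpr i) (X.tw i).dvd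
  let S : Set ℕ := (S₀ : Set ℕ) ∪ Set.range X.qv
  let N : Finset (Fin t) → ℕ := fun J => NJ pe r₀ Un q J * ∏ i, X.qv i
  haveI hN0 : ∀ J, NeZero (N J) := fun J =>
    ⟨mul_ne_zero (D.pos J).ne' (Finset.prod_ne_zero_iff.2 fun i _ => (hvpr i).ne_zero)⟩
  haveI hNN0 : ∀ J (s : Finset (Fin r)), NeZero (NN (NJ pe r₀ Un q J) X.qv s) := fun J s =>
    ⟨mul_ne_zero (D.pos J).ne' (Finset.prod_ne_zero_iff.2 fun i _ => (hvpr i).ne_zero)⟩
  have hNS : ∀ J, ∀ l, l.Prime → l ∣ N J → l ∈ S := fun J l hl hd => D.hNS' hvpr l hl hd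
  have hNNS : ∀ J s, ∀ l, l.Prime → l ∣ NN (NJ pe r₀ Un q J) X.qv s → l ∈ S := fun J s l hl hd =>
    D.hNS hvpr s l hl hd
  have hvN : ∀ J i, X.qv i ∣ N J := fun J i =>
    (Finset.dvd_prod_of_mem X.qv (Finset.mem_univ i)).trans (dvd_mul_left _ _)
  have hvN₀ : ∀ J i, ¬ X.qv i ∣ NJ pe r₀ Un q J := fun J i hd => hvS i (D.hNS₀ J _ (hvpr i) hd)
  haveI hH : ∀ J, Fact ((-1 : (ZMod (N J))ˣ) ∈ HQ (hvN J) c) := fun J => by
    have hw : TWN p (NJ pe r₀ Un q J) X.qv (N J) m c :=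
      ⟨hp.out, hp2, hvpr, X.inj, hvN₀ J, rfl, hmc, hc, fun i => by have := hm i; omega⟩
    exact ⟨hw.neg_one_mem⟩
  obtain ⟨e, Y, he, -, hI, hu⟩ := exists_famW h hp2 hpO ι hgk D hmod
    (haux_W hp2 hΔ hirr _) X.inj hvS hmc hc (fun i => by have := hm i; omega) hv
    (S := S) rfl (N := N) (fun J => rfl) hNS hNNS hvN (fun j => SD.lies _ (D.primeq j)) SD.frob
  obtain ⟨u⟩ := hu Finset.univ
  have I := fun j => (hI j).some
  -- the Hecke operator
  obtain ⟨s', hs'⟩ := exists_rename (S₀ := (S₀ : Set ℕ)) (S := S) Set.subset_union_left s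
    (fun l hl hlS => by
      rcases hlS with hlS | ⟨i, hi⟩
      · exact l.2.2 hlS
      · exact X.notS' i ⟨l, hl, hi.symm⟩)
  have hNJS : ∀ l, l.Prime → l ∣ NJ pe r₀ Un q Finset.univ → l ∈ S := fun l hl hd =>
    Or.inl (D.hNS₀ Finset.univ l hl hd)
  have hs1 : phiG O hNJS s' = 0 := by
    rw [← phiG_rename (fun l : IS S => (⟨l.1, l.2.1, fun h => l.2.2 (Or.inl h)⟩ :
      IS (S₀ : Set ℕ))) (fun l => rfl) (D.hNS₀ Finset.univ) hNJS s', ← hs']
    exact hs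
  have hs2 : MvPolynomial.aeval (fun i : IS (S₀ : Set ℕ) => aW O W i) s =
      MvPolynomial.aeval (fun i : IS S => aW O W i) s' := by
    rw [hs', MvPolynomial.aeval_rename]
    rfl
  rw [hs2]
  exact rlev_inner h hp2 hmax hW D SD X.inj hvS hmc hc (fun i => by have := hm i; omega)
    (fun i => by have := hm i; omega) hv (N := N Finset.univ) (NM := N ∅) rfl rfl (S := S) rfl
    (hNNS Finset.univ) (Y Finset.univ) (Y ∅) (he Finset.univ) hmod _ I u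
    (Sf := X.S) (fun l => by
      rw [X.mem]
      rfl) (hgen (by omega : 1 ≤ n + 1) X hmc hc (fun i => by have := hm i; omega) hv rfl rfl
      (Y Finset.univ)) hNJS hs1

end Fermat.Agent.CoreW
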