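import Fermat.Agent.CoreW.Setup
import Fermat.Agent.S59e.Fin

/-!
# No `p`-old part if the curve is not residually modular of level prime to `p`
-/

set_option autoImplicit false
set_option linter.unusedSectionVars false
set_option linter.style.haveILetI false

noncomputable section

namespace Fermat.Agent.CoreW

open Matrix IsLocalRing Fermat.Agent.GalRep Fermat.Agent.TW Fermat.Agent.Places Fermat.Agent.Flat
open Fermat.Agent.Cheb Fermat.Agent.KumG Fermat.Agent.MD Fermat.Agent.Sel Fermat.Agent.ImW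
open Fermat.Agent.WM Fermat.Agent.StR Fermat.Agent.JT Fermat.Agent.S59e Fermat.Agent.SSH
open Fermat.Agent.Cov Fermat.Agent.E2Y Fermat.Agent.E2K Fermat.Agent.E2

local notation "Ω" => AlgebraicClosure ℚ

local notation "𝒢" => (AlgebraicClosure ℚ) ≃ₐ[ℚ] (AlgebraicClosure ℚ)

section alg

variable {O : Type} [CommRing O] [IsLocalRing O] [IsNoetherianRing O]
  [IsAdicComplete (maximalIdeal O) O] {q M : ℕ} [hq : Fact q.Prime] [NeZero M]
  {H : Subgroup (ZMod M)ˣ} [hH : Fact ((-1 : (ZMod M)ˣ) ∈ H)] {S : Set ℕ}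

/-- the transfers vanish if the system of eigenvalues does not occur at the lower level -/
theorem tO_zero (hMS : ∀ l, l.Prime → l ∣ M → l ∈ S) (hNS : ∀ l, l.Prime → l ∣ q * M → l ∈ S)
    (D : WData q M H) (hqM : ¬ q ∣ M) {θ : TS O S →ₐ[O] ResidueField O} {e s : TS O S}
    (hs : phiH O H hMS s = 0) (hθ : θ s ≠ 0)
    (heH : IsLoc (phiH O (HM (dvd_mul_left M q) H) hNS) θ e)
    (y : YH (HM (dvd_mul_left M q) H) hNS e) :
    tO O q M H (y : XH O (q * M) (HM (dvd_mul_left M q) H)) = 0 ∧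
      tO O q M H (WO O D (y : XH O (q * M) (HM (dvd_mul_left M q) H))) = 0 := by
  obtain ⟨s', hs'⟩ := heH.unit s hθ
  obtain ⟨z, hz⟩ := y.2
  have h0 : (y : XH O (q * M) (HM (dvd_mul_left M q) H)) =
      phiH O (HM (dvd_mul_left M q) H) hNS e z := by
    rw [← hz, phiD_incD]
  have h1 : (y : XH O (q * M) (HM (dvd_mul_left M q) H)) = phiH O (HM (dvd_mul_left M q) H) hNS s
      (phiH O (HM (dvd_mul_left M q) H) hNS s' y) := by
    have h2 := LinearMap.congr_fun hs' z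
    rw [Module.End.mul_apply, Module.End.mul_apply, ← h0] at h2
    have h3 : phiH O (HM (dvd_mul_left M q) H) hNS s
        (phiH O (HM (dvd_mul_left M q) H) hNS s' y) =
        phiH O (HM (dvd_mul_left M q) H) hNS s'
        (phiH O (HM (dvd_mul_left M q) H) hNS s y) := by
      rw [← Module.End.mul_apply, ← map_mul, mul_comm s s', map_mul, Module.End.mul_apply]
    rw [h3]
    exact h2.symm
  constructor
  · rw [h1, tO_phi hMS hNS D hqM, hs]
    rfl
  · rw [h1, WO_phi hNS D, tO_phi hMS hNS D hqM, hs]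
    rfl

end alg

section W

variable {W : WeierstrassCurve ℤ} {p r₀ : ℕ} [hp : Fact p.Prime] {ρ : 𝒢 →* M2 (ZMod p)}
  (h : ResW W p ρ)
  {O : Type} [CommRing O] [IsDomain O] [IsDiscreteValuationRing O]
  [IsAdicComplete (maximalIdeal O) O] [CharZero O] [Finite (ResidueField O)]
  (hp2 : p ≠ 2) (hpO : (p : O) ∈ maximalIdeal O)
  (ι : AlgebraicClosure ℚ →+* ℂ) [Invertible (2 : O)] [Algebra (ZMod p) (ResidueField O)]
  {t : ℕ} {q : Fin t → ℕ} {ty : Fin t → Ty} {S₀ Un : Finset ℕ} {pe : ℕ}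
  (D : BData W p r₀ ρ (ResidueField O) q ty S₀ Un pe)

include h D hp2 hpO ι in
/-- the system of eigenvalues does not occur at the levels prime to `p` -/
theorem no_occ_prime {J : Finset (Fin t)}
    (hno : ¬ W.IsResiduallyModularOfLevel p (NJ 1 r₀ Un q J))
    {r : ℕ} {v : Fin r → ℕ} {A : Fin r → ValuationSubring (AlgebraicClosure ℚ)}
    {Φ : Fin r → GQ} (hinj : Function.Injective v) (hvS : ∀ i, v i ∉ (S₀ : Set ℕ))
    (hv : ∀ i, TWp p (fun g => (extW ρ (algebraMap (ZMod p) (ResidueField O)) g).trace) (v i)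
      (A i) (Φ i))
    {N : ℕ} [NeZero N] (hN : N = NJ 1 r₀ Un q J * ∏ i, v i) {S : Set ℕ}
    (hSS : S = (S₀ : Set ℕ) ∪ Set.range v)
    (hNS : ∀ l, l.Prime → l ∣ N → l ∈ S) (H : Subgroup (ZMod N)ˣ)
    [hH : Fact ((-1 : (ZMod N)ˣ) ∈ H)] (hΔ : IsPGroup p (DG N H)) :
    ∃ s : TS O S, phiH O H hNS s = 0 ∧
      thS (tl (algebraMap (ZMod p) (ResidueField O)) W) S s ≠ 0 := by
  have D1 := D.change (Or.inl rfl : (1 : ℕ) = 1 ∨ (1 : ℕ) = p)
  haveI := D1.neZero J
  exact exists_no_TW hpO hp2 ι (isPseudoRep _ ρ) (isLocConst_tr h _) (Finset.finite_toSet S₀)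
    D.p_mem (fun l hl hlS A hA τ hτ => hfr h _ D.p_mem (fun _ hl hS => D.good hl hS) l hl hlS A
      hA τ hτ) (exists_com h _ hp2) (D1.hNS₀ J)
    (not_occ_of_not_modular hpO ι (algebraMap (ZMod p) (ResidueField O)) (isPseudoRep _ ρ)
      (isLocConst_tr h _) (hF h _) (Finset.finite_toSet S₀) (D1.hNS₀ J) D.p_mem
      (fun _ hl hS => D.good hl hS) hno) hinj hvS hv hN hSS hNS H hΔ

end W

end Fermat.Agent.CoreW
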