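import Fermat.Agent.CoreW.StepC
import Fermat.Agent.CoreW.NoOld
import Fermat.Agent.OrdH.UCon
import Fermat.Agent.AsmF.Step

/-!
# The quotient character at `p` in the absence of `p`-old forms
-/

set_option autoImplicit false
set_option linter.unusedSectionVars false
set_option linter.style.haveILetI false

noncomputable section

namespace Fermat.Agent.CoreW

open Matrix IsLocalRing Fermat.Agent.GalRep Fermat.Agent.TW Fermat.Agent.Places Fermat.Agent.Flat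
open Fermat.Agent.Cheb Fermat.Agent.KumG Fermat.Agent.MD Fermat.Agent.Sel Fermat.Agent.ImW
open Fermat.Agent.WM Fermat.Agent.StR Fermat.Agent.JT Fermat.Agent.S59e Fermat.Agent.SSH
open Fermat.Agent.Cov Fermat.Agent.E2Y Fermat.Agent.OrdH
open Fermat.Agent.ZG (NData SDat TWn Det L0 LvH FrD parS PhiJ OrdR)
open Fermat.Agent.LC (ordL)

local notation "Ω" => AlgebraicClosure ℚ

local notation "𝒢" => (AlgebraicClosure ℚ) ≃ₐ[ℚ] (AlgebraicClosure ℚ)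

/-- the relation between `U_p` and Frobenius at the Taylor–Wiles levels -/
def URelLev (W : WeierstrassCurve ℤ) (p : ℕ) [Fact p.Prime] (ρ : 𝒢 →* M2 (ZMod p)) : Prop :=
  ∀ (O : Type) [CommRing O] [IsDomain O] [IsDiscreteValuationRing O]
    [IsAdicComplete (maximalIdeal O) O] [CharZero O] [Finite (ResidueField O)]
    (hpO : (p : O) ∈ maximalIdeal O) (_ : maximalIdeal O = Ideal.span {(p : O)})
    (ι : AlgebraicClosure ℚ →+* ℂ) [Invertible (2 : O)] [Algebra (ZMod p) (ResidueField O)]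
    (g₀ k₀ : 𝒢)
    (hgk : HG.IrrAt (fun g => (extW ρ (algebraMap (ZMod p) (ResidueField O)) g).trace) g₀ k₀)
    (r₀ t : ℕ) (q : Fin t → ℕ) (ty : Fin t → Ty) (S₀ Un : Finset ℕ)
    (_ : BData W p r₀ ρ (ResidueField O) q ty S₀ Un p) (_ : (p : ℤ) ∣ W.Δ)
    (J : Finset (Fin t))
    (r : ℕ) (v : Fin r → ℕ) (A : Fin r → ValuationSubring Ω) (Fv : Fin r → GQ)
    (_ : Function.Injective v) (_ : ∀ i, v i ∉ (S₀ : Set ℕ)) (m c : Fin r → ℕ)
    (_ : ∀ i, v i - 1 = p ^ m i * c i) (_ : ∀ i, ¬ p ∣ c i) (_ : ∀ i, 1 ≤ m i)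
    (_ : ∀ i, TWp p (fun g => (extW ρ (algebraMap (ZMod p) (ResidueField O)) g).trace) (v i)
      (A i) (Fv i))
    (N : ℕ) [NeZero N] (_ : N = NJ p r₀ Un q J * ∏ i, v i)
    (S : Set ℕ) (_ : S = (S₀ : Set ℕ) ∪ Set.range v)
    (hNS : ∀ l, l.Prime → l ∣ N → l ∈ S) (e : TS O S) (B : ℕ)
    (X : Lev0 hpO ι hgk hNS (thS (tl (algebraMap (ZMod p) (ResidueField O)) W) S) v A m c e B)
    (M : ℕ) [NeZero M] (_ : M = NJ 1 r₀ Un q J * ∏ i, v i) (hvM : ∀ i, v i ∣ M)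
    [Fact ((-1 : (ZMod M)ˣ) ∈ HQ hvM c)] (hpM : ¬ p ∣ M) (h2 : Lv2 p (HQ hvM c) (HQ X.hvN c))
    (D' : WData p M (HQ hvM c)),
    haveI := X.hH
    haveI := X.nt
    haveI := X.fr
    URelN h2 X.hg D' hpM

section alg

variable {O : Type} [CommRing O] [IsLocalRing O] [IsNoetherianRing O]
  [IsAdicComplete (maximalIdeal O) O] {q M N : ℕ} [hq : Fact q.Prime] [NeZero M] [NeZero N]
  {H : Subgroup (ZMod M)ˣ} [hH : Fact ((-1 : (ZMod M)ˣ) ∈ H)]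
  {H' : Subgroup (ZMod N)ˣ} [hH' : Fact ((-1 : (ZMod N)ˣ) ∈ H')] {S : Set ℕ}

/-- the transfers vanish if the system of eigenvalues does not occur at the lower level -/
theorem sN_zero (h2 : Lv2 q H H') (hMS : ∀ l, l.Prime → l ∣ M → l ∈ S)
    (hNS : ∀ l, l.Prime → l ∣ N → l ∈ S)
    (D : WData q M H) (hqM : ¬ q ∣ M) {θ : TS O S →ₐ[O] ResidueField O} {e s : TS O S}
    (hs : phiH O H hMS s = 0) (hθ : θ s ≠ 0) (heH : IsLoc (phiH O H' hNS) θ e)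
    (y : YH H' hNS e) :
    s1N h2 hMS hNS e D hqM y = 0 ∧ s2N h2 hMS hNS e D hqM y = 0 := by
  obtain ⟨hN, hH⟩ := h2
  subst hN
  subst hH
  obtain ⟨h1, h2⟩ := tO_zero hMS hNS D hqM hs hθ heH y
  exact ⟨Subtype.ext h1, Subtype.ext h2⟩

theorem pGroup_lv2 {p : ℕ} [hp : Fact p.Prime] (h2 : Lv2 q H H') (h : IsPGroup p (DG N H')) :
    IsPGroup p (DG M H) := by
  obtain ⟨hN, hH⟩ := h2
  subst hN
  subst hH
  obtain ⟨n, hn⟩ := IsPGroup.iff_card.1 h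
  refine IsPGroup.iff_card.2 ⟨n, ?_⟩
  rw [Nat.card_eq_fintype_card, ← card_DG (q := q) (M := M) (H := H), ← Nat.card_eq_fintype_card]
  exact hn

theorem neg_one_mem {r : ℕ} {v c : Fin r → ℕ} (hvM : ∀ i, v i ∣ M) (hvN : ∀ i, v i ∣ N)
    (h2 : Lv2 q (HQ hvM c) (HQ hvN c)) (h : (-1 : (ZMod N)ˣ) ∈ HQ hvN c) :
    (-1 : (ZMod M)ˣ) ∈ HQ hvM c := by
  rw [h2.hH, Subgroup.mem_comap] at h
  have h3 : ZMod.unitsMap (h2.hN ▸ dvd_mul_left M q : M ∣ N) (-1 : (ZMod N)ˣ) = -1 := by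
    apply Units.ext
    rw [ZMod.unitsMap_def, Units.coe_map, Units.val_neg, Units.val_one, Units.val_neg,
      Units.val_one]
    change ZMod.castHom (h2.hN ▸ dvd_mul_left M q : M ∣ N) (ZMod M) (-1 : ZMod N) = -1
    rw [map_neg, map_one]
  rwa [h3] at h

end alg

variable {W : WeierstrassCurve ℤ} {p : ℕ} [hp : Fact p.Prime] {ρ : 𝒢 →* M2 (ZMod p)}

/-- **The unramified quotient character in case II.** -/
theorem uOne (hΔ : W.Δ ≠ 0) (hss : W.IsSemistableModel) (hp2 : p ≠ 2) (h : ResW W p ρ)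
    (hR : URelLev W p ρ) : UOne W p ρ := by
  intro O _ _ _ _ _ _ hpO hmax ι _ _ g₀ k₀ hgk r₀ t q ty S₀ Un D hd hno r v A Fv hinj hvS m c hmc hc
    hm hv N _ hN S hSS hNS e B X
  haveI := X.hH
  haveI := X.nt
  haveI := X.fr
  intro A' hA' Φp hΦp Q Qi HO
  have D1 := D.change (Or.inl rfl : (1 : ℕ) = 1 ∨ (1 : ℕ) = p)
  have hvpr : ∀ i, (v i).Prime := fun i => (hv i).prime
  have hM0 : NJ 1 r₀ Un q Finset.univ * ∏ i, v i ≠ 0 :=
    mul_ne_zero (D1.pos _).ne' (Finset.prod_ne_zero_iff.2 fun i _ => (hvpr i).ne_zero)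
  obtain ⟨M, hM⟩ : ∃ M, M = NJ 1 r₀ Un q Finset.univ * ∏ i, v i := ⟨_, rfl⟩
  haveI : NeZero M := ⟨hM ▸ hM0⟩
  have hNM : N = p * M := by rw [hN, NJ_mul, hM]; ring
  have hvM : ∀ i, v i ∣ M := fun i => by
    rw [hM]
    exact (Finset.dvd_prod_of_mem v (Finset.mem_univ i)).mul_left _
  have hpM : ¬ p ∣ M := by
    rw [hM]
    intro hd'
    rcases hp.out.dvd_mul.1 hd' with h1 | h1
    · exact hp.out.one_lt.ne ((D1.p_dvd_iff Finset.univ).1 h1)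
    · obtain ⟨i, -, hi⟩ := (hp.out.prime.dvd_finsetProd_iff _).1 h1
      rw [Nat.prime_dvd_prime_iff_eq hp.out (hvpr i)] at hi
      exact hvS i (hi ▸ D.p_mem)
  have h2 : Lv2 p (HQ hvM c) (HQ X.hvN c) := AsmF.lv2_HQ hNM hvM X.hvN
  haveI : Fact ((-1 : (ZMod M)ˣ) ∈ HQ hvM c) := ⟨neg_one_mem hvM X.hvN h2 X.hH.out⟩
  have hMS : ∀ l, l.Prime → l ∣ M → l ∈ S := fun l hl hd' =>
    hNS l hl (hNM ▸ hd'.mul_left p)
  have hΔM : IsPGroup p (DG M (HQ hvM c)) := pGroup_lv2 h2 X.hΔ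
  have hodd : Odd (HQ hvM c).index := by
    rw [Subgroup.index_eq_card, Nat.card_eq_fintype_card]
    exact AsmF.odd_card_of_pGroup hp2 hΔM
  obtain ⟨D'⟩ := exists_WData_of_odd (q := p) (M := M) (H := HQ hvM c)
    ((Nat.Prime.coprime_iff_not_dvd hp.out).2 hpM) hodd
  obtain ⟨s, hs, hθ⟩ := no_occ_prime h hp2 hpO ι D (J := Finset.univ)
    (hno _ (D1.pos _).ne' (D1.sqfree _)
      fun h1 => hp.out.one_lt.ne ((D1.p_dvd_iff Finset.univ).1 h1))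
    hinj hvS hv hM hSS hMS (HQ hvM c) hΔM
  have hU := hR O hpO hmax ι g₀ k₀ hgk r₀ t q ty S₀ Un D hd Finset.univ r v A Fv hinj hvS m c hmc hc
    hm hv N hN S hSS hNS e B X M hM hvM hpM h2 D'
  rw [← sub_eq_zero]
  refine X.hg.faithful fun y => ?_
  obtain ⟨h3, h4⟩ := sN_zero h2 hMS hNS D' hpM hs hθ X.heH y
  exact URelN.o2 (hMS := hMS) hU HO hp2 hA' hΦp h3 h4

end Fermat.Agent.CoreW
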