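import Fermat.Agent.CoreW.Setup
import Fermat.Agent.ZG.LvY
import Fermat.Agent.ZG.LvW
import Fermat.Agent.ZG.Main
import Fermat.Agent.JT.FlatW

/-!
# Generators of the trace rings at the Taylor–Wiles levels
-/

set_option autoImplicit false
set_option linter.unusedSectionVars false
set_option linter.style.haveILetI false

noncomputable section

namespace Fermat.Agent.CoreW

open Matrix IsLocalRing Fermat.Agent.GalRep Fermat.Agent.TW Fermat.Agent.Places Fermat.Agent.Flat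
open Fermat.Agent.Cheb Fermat.Agent.KumG Fermat.Agent.MD Fermat.Agent.Sel Fermat.Agent.ImW
open Fermat.Agent.WM Fermat.Agent.StR Fermat.Agent.JT
open Fermat.Agent.ZG (NData SDat TWn Det L0 LvH FrD parS PhiJ OrdR)
open Fermat.Agent.LC (ordL)

local notation "Ω" => AlgebraicClosure ℚ

local notation "𝒢" => (AlgebraicClosure ℚ) ≃ₐ[ℚ] (AlgebraicClosure ℚ)

variable {W : WeierstrassCurve ℤ} {p r₀ : ℕ} [hp : Fact p.Prime] {ρ : 𝒢 →* M2 (ZMod p)}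
  {O : Type} [CommRing O] [IsDomain O] [IsDiscreteValuationRing O]
  [IsAdicComplete (maximalIdeal O) O] [CharZero O] [Finite (ResidueField O)]
  {hpO : (p : O) ∈ maximalIdeal O} {ϖ : O} {ι : AlgebraicClosure ℚ →+* ℂ} [Invertible (2 : O)]
  [Algebra (ZMod p) (ResidueField O)] {g₀ k₀ : 𝒢}
  {hgk : HG.IrrAt (fun g => (extW ρ (algebraMap (ZMod p) (ResidueField O)) g).trace) g₀ k₀}
  {ρW : 𝒢 →* M2 O} {t : ℕ} {q : Fin t → ℕ} {ty : Fin t → Ty} {S₀ Un : Finset ℕ} {pe : ℕ}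
  (D : BData W p r₀ ρ (ResidueField O) q ty S₀ Un pe) {J : Finset (Fin t)}
  {r : ℕ} {v : Fin r → ℕ} (hv : ∀ i, (v i).Prime) {N : ℕ} [NeZero N]
  (hN : N = NJ pe r₀ Un q J * ∏ i, v i) {S : Set ℕ}
  {hNS : ∀ l, l.Prime → l ∣ N → l ∈ S} {θ : TS O S →ₐ[O] ResidueField O}
  {Av : Fin r → ValuationSubring Ω} {m c : Fin r → ℕ} {e : TS O S} {B : ℕ}
  (X : Lev0 hpO ι hgk hNS θ v Av m c e B)
  {Sf : Finset ℕ} (hSf : ∀ l, l ∈ Sf ↔ l ∈ S₀ ∨ ∃ i, v i = l)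

include D hv hN hSf in
/-- unramified outside `Sf` -/
theorem lev_hunr : haveI := X.hH; haveI := X.nt; haveI := X.fr
    ∀ l : ℕ, l.Prime → l ∉ Sf → ∀ A : ValuationSubring Ω, A.LiesOverPrime l →
      ∀ σ ∈ A.inertiaSubgroupIn ℚ, X.hg.R hgk σ = 1 := by
  intro l hl hlS A hA σ hσ
  rw [hSf, not_or] at hlS
  refine ZG.lev_unr X hl (fun hd => ?_) (fun e => hlS.1 (e ▸ D.p_mem)) hA hσ
  rw [hN, hl.dvd_mul] at hd
  rcases hd with hd | hd
  · exact hlS.1 (D.hNS₀ J l hl hd)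
  · obtain ⟨i, -, hi⟩ := (hl.prime.dvd_finsetProd_iff _).1 hd
    rw [Nat.prime_dvd_prime_iff_eq hl (hv i)] at hi
    exact hlS.2 ⟨i, hi.symm⟩

include D hv hN in
/-- unipotent at the bad primes -/
theorem lev_hsq (hp2 : p ≠ 2) (hvS : ∀ i, v i ∉ (S₀ : Set ℕ)) :
    haveI := X.hH; haveI := X.nt; haveI := X.fr
    ∀ l : ℕ, l.Prime → ¬ W.IsGoodPrimeFor l → l ≠ p → ∀ A : ValuationSubring Ω,
      A.LiesOverPrime l → ∀ σ ∈ A.inertiaSubgroupIn ℚ,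
        (X.hg.R hgk σ - 1) * (X.hg.R hgk σ - 1) = 0 := by
  haveI := X.hH
  haveI := X.nt
  haveI := X.fr
  intro l hl hbad hlp A hA σ hσ
  by_cases hlN : l ∣ N
  · have hlS : l ∈ S₀ := (D.nd.mem l).2 (Or.inr (Or.inr ⟨hl, hbad⟩))
    have hlv : ¬ l ∣ ∏ i, v i := fun hd => by
      obtain ⟨i, -, hi⟩ := (hl.prime.dvd_finsetProd_iff _).1 hd
      rw [Nat.prime_dvd_prime_iff_eq hl (hv i)] at hi
      exact hvS i (hi ▸ hlS)
    have hlJ : l ∣ NJ pe r₀ Un q J := by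
      rw [hN, hl.dvd_mul] at hlN
      exact hlN.resolve_right hlv
    obtain ⟨c', hc'⟩ := hlJ
    have hlc : ¬ l ∣ c' := by
      rintro ⟨d, rfl⟩
      have h1 := Nat.squarefree_iff_prime_squarefree.1 (D.sqfree J) l hl
      exact h1 ⟨d, by rw [hc']; ring⟩
    have hlr : l ≠ r₀ := fun e => hbad (e ▸ D.hrg)
    have hrc : r₀ ∣ c' := by
      have h1 := r_dvd pe r₀ Un q J
      rw [hc'] at h1
      exact (D.hr.dvd_mul.1 h1).resolve_left fun h2 =>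
        hlr ((Nat.prime_dvd_prime_iff_eq D.hr hl).1 h2).symm
    have hvpos : 0 < ∏ i, v i := Finset.prod_pos fun i _ => (hv i).pos
    have hc0 : 0 < c' := Nat.pos_of_ne_zero fun h0 => (D.pos J).ne' (by rw [hc', h0, mul_zero])
    refine ZG.lev_unip hp2 X (M := c' * ∏ i, v i) hl hlp (by rw [hN, hc', mul_assoc])
      (fun hd => (hl.dvd_mul.1 hd).elim hlc hlv) ?_
      (fun i => (Finset.dvd_prod_of_mem v (Finset.mem_univ i)).mul_left c') hA hσ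
    have h2 : r₀ ≤ c' * ∏ i, v i :=
      (Nat.le_of_dvd hc0 hrc).trans (Nat.le_mul_of_pos_right _ hvpos)
    have h3 := D.hr12
    omega
  · have h1 := ZG.lev_unr X hl hlN hlp hA hσ
    rw [h1, sub_self, zero_mul]

variable {ε : Fin t → ℤ} {A₀ : ℕ → ValuationSubring Ω} {Φ : Fin t → 𝒢} {vv : Fin t → Fin 2 → O}
  (SD : SDat W p r₀ ρ q ty S₀ Un ρW ε A₀ Φ vv)
  (hW : WPt.WRep W p hpO ρ (algebraMap (ZMod p) (ResidueField O)) g₀ ρW)
  {χ : TD O S N →ₐ[O] O}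

include D hv hN hSf SD hW in
/-- the local hypotheses over the trace ring of the level -/
theorem lvH_lev (hmax : maximalIdeal O = Ideal.span {ϖ}) (hp2 : p ≠ 2)
    (hvS : ∀ i, v i ∉ (S₀ : Set ℕ)) :
    haveI := X.hH; haveI := X.nt; haveI := X.fr
    LvH X.hg hgk ϖ q ty ε A₀ Φ vv S₀ Un Sf := by
  haveI := X.hH
  haveI := X.nt
  haveI := X.fr
  exact SD.lvH hmax hW X.hg (lev_hunr D hv hN X hSf) (lev_hsq D hv hN X hp2 hvS)

include D hv hN hSf SD hW in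
/-- the local hypotheses over the joint trace ring of the level and the curve -/
theorem lvH_joint_lev (hmax : maximalIdeal O = Ideal.span {ϖ}) (hp2 : p ≠ 2)
    (hvS : ∀ i, v i ∉ (S₀ : Set ℕ)) :
    haveI := X.hH; haveI := X.nt; haveI := X.fr
    ∀ P : PtD hpO S (psiY (HQ X.hvN c) hNS e) (thetaD θ N) (rhoY hpO ι (HQ X.hvN c) hNS e) χ ρW,
    LvH (JT.joint X.hg P) hgk ϖ q ty ε A₀ Φ vv S₀ Un Sf := by
  haveI := X.hH
  haveI := X.nt
  haveI := X.fr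
  intro P
  refine SD.lvH_joint hmax hW X.hg P (fun l hl hlS => ?_) (lev_hunr D hv hN X hSf)
    (lev_hsq D hv hN X hp2 hvS)
  rw [hSf, not_or] at hlS
  exact ⟨D.good hl hlS.1, fun e => hlS.1 (e ▸ D.p_mem)⟩

section gens

variable {T Y : Type} [CommRing T] [Algebra O T] [AddCommGroup Y] [Module O Y]
  [Module.Finite O Y] [Module.Free O Y] [Nontrivial Y]
  {ψ : T →ₐ[O] Module.End O Y} {θT : T →ₐ[O] ResidueField O} {ρY : GQ →* Module.End O Y}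
  {χT : T →ₐ[O] O} {g n : ℕ} {Sx : Set ℕ}

include D in
/-- the levels prime to `p` are flat -/
theorem lev_flat (hmO : maximalIdeal O = Ideal.span {(p : O)}) (hpe : pe = 1)
    (hv : ∀ i, (v i).Prime) (hvS : ∀ i, v i ∉ (S₀ : Set ℕ)) {N : ℕ} [NeZero N]
    (hN : N = NJ pe r₀ Un q J * ∏ i, v i) {hNS : ∀ l, l.Prime → l ∣ N → l ∈ S}
    {H : Subgroup (ZMod N)ˣ} [hH : Fact ((-1 : (ZMod N)ˣ) ∈ H)] (e : TS O S)
    {A : ValuationSubring Ω} (hA : A.LiesOverPrime p) :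
    FlatAll p A (fun g => rhoY hpO ι H hNS e g) := by
  have hpN : ¬ p ∣ N := by
    rw [hN, hp.out.dvd_mul, not_or]
    refine ⟨fun hd => ?_, fun hd => ?_⟩
    · have h1 := (D.p_dvd_iff J).1 hd
      exact hp.out.one_lt.ne (hpe ▸ h1)
    · obtain ⟨i, -, hi⟩ := (hp.out.prime.dvd_finsetProd_iff _).1 hd
      rw [Nat.prime_dvd_prime_iff_eq hp.out (hv i)] at hi
      exact hvS i (hi ▸ D.p_mem)
  have hN3 : 3 ≤ N := by
    have h1 := D.three_le J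
    have h2 : 0 < ∏ i, v i := Finset.prod_pos fun i _ => (hv i).pos
    rw [hN]
    exact h1.trans (Nat.le_mul_of_pos_right _ h2)
  exact flatAll_YH hpN hN3 hA (finite_quot hmO)

include SD in
/-- **Generators, case I**, for given frames. -/
theorem gz_flat (hp2 : p ≠ 2)
    (Q : TWn p (extW ρ (algebraMap (ZMod p) (ResidueField O))) S₀ A₀
        (flatL (extW ρ (algebraMap (ZMod p) (ResidueField O))) p) q Un r g n Sx)
    (h : HG hpO S (fun g => (extW ρ (algebraMap (ZMod p) (ResidueField O)) g).trace) ψ θT ρY)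
    (P : JT.PtD hpO S ψ θT ρY χT ρW)
    (hfY : FlatAll p (A₀ p) (fun g => ρY g))
    (hfW : FlatAll p (A₀ p) (fun g => mulVecLin (ρW g)))
    (σ₀ : Fin t → 𝒢) (Qj : Fin t → Matrix (Fin 2) (Fin 2) (JT.joint h P).TT)
    (hL : LvH (JT.joint h P) hgk ϖ q ty ε A₀ Φ vv S₀ Un Q.S)
    (F : FrD (JT.joint h P) hgk q ty A₀ Φ vv σ₀ Qj) :
    ∃ (z : Fin g → (JT.joint h P).TT),
      (∀ i, z i ∈ maximalIdeal (JT.joint h P).TT) ∧
      maximalIdeal (JT.joint h P).TT ≤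
        Ideal.span {algebraMap O (JT.joint h P).TT ϖ} ⊔ Ideal.span (Set.range z) ⊔
        Ideal.span (parS q ty ε (PhiJ (JT.joint h P) hgk ty Φ vv Qj)
          (ZG.NJ (JT.joint h P) hgk ty Φ vv σ₀ Qj)) ⊔
        maximalIdeal (JT.joint h P).TT ^ 2 := by
  have hA := SD.lies p hp.out
  exact ZG.gen_flat Q hL F fun Jd Dd hD hpJ =>
    mem_flatS_of_flatAll (JT.joint h P) hgk hp2 hA (flatAll_joint hA hfY hfW) hL.hred Jd Dd hD hpJ

include SD hW in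
/-- **Generators, case II**, for given frames. -/
theorem gz_ord (hss : W.IsSemistableModel) (hp2 : p ≠ 2) (hbad : (p : ℤ) ∣ W.Δ)
    (Q : TWn p (extW ρ (algebraMap (ZMod p) (ResidueField O))) S₀ A₀
        (ordL (extW ρ (algebraMap (ZMod p) (ResidueField O))) p) q Un r g n Sx)
    (h : HG hpO S (fun g => (extW ρ (algebraMap (ZMod p) (ResidueField O)) g).trace) ψ θT ρY)
    (P : JT.PtD hpO S ψ θT ρY χT ρW)
    (hord : ∀ σ ∈ (A₀ p).inertiaSubgroupIn ℚ, ∀ τ ∈ (A₀ p).inertiaSubgroupIn ℚ,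
      (h.R hgk τ - algebraMap O h.TT (cycO hpO τ) • (1 : Matrix (Fin 2) (Fin 2) h.TT)) *
        (h.R hgk σ - 1) = 0)
    (hu : ∀ Φp : 𝒢, (A₀ p).IsFrobeniusAt Φp p → ∀ Q Qi, OrdR h hgk (A₀ p) Q Qi →
        (Qi * h.R hgk Φp * Q) 1 1 ^ 2 = 1)
    (σ₀ : Fin t → 𝒢) (Qj : Fin t → Matrix (Fin 2) (Fin 2) (JT.joint h P).TT)
    (hL : LvH (JT.joint h P) hgk ϖ q ty ε A₀ Φ vv S₀ Un Q.S)
    (F : FrD (JT.joint h P) hgk q ty A₀ Φ vv σ₀ Qj) :
    ∃ (z : Fin g → (JT.joint h P).TT),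
      (∀ i, z i ∈ maximalIdeal (JT.joint h P).TT) ∧
      maximalIdeal (JT.joint h P).TT ≤
        Ideal.span {algebraMap O (JT.joint h P).TT ϖ} ⊔ Ideal.span (Set.range z) ⊔
        Ideal.span (parS q ty ε (PhiJ (JT.joint h P) hgk ty Φ vv Qj)
          (ZG.NJ (JT.joint h P) hgk ty Φ vv σ₀ Qj)) ⊔
        maximalIdeal (JT.joint h P).TT ^ 2 := by
  have hA := SD.lies p hp.out
  obtain ⟨Φp, hΦp⟩ := exists_isFrobeniusAt (A₀ p) hp.out hA
  have hordJ := SDat.hord_joint h P hss hbad hW hA hord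
  obtain ⟨Qa, Qi, HO⟩ := ZG.exists_ordR (JT.joint h P) hgk hp2 hA hordJ
  exact ZG.gen_ord Q hL F hA HO hΦp
    (SDat.u_joint h P hp2 hss hbad hW hA hΦp (hu Φp hΦp) HO)

include SD in
/-- **Generators, case I.** -/
theorem gens_flat (hp2 : p ≠ 2)
    (Q : TWn p (extW ρ (algebraMap (ZMod p) (ResidueField O))) S₀ A₀
        (flatL (extW ρ (algebraMap (ZMod p) (ResidueField O))) p) q Un r g n Sx)
    (h : HG hpO S (fun g => (extW ρ (algebraMap (ZMod p) (ResidueField O)) g).trace) ψ θT ρY)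
    (P : JT.PtD hpO S ψ θT ρY χT ρW)
    (hL : LvH (JT.joint h P) hgk ϖ q ty ε A₀ Φ vv S₀ Un Q.S)
    (hfY : FlatAll p (A₀ p) (fun g => ρY g))
    (hfW : FlatAll p (A₀ p) (fun g => mulVecLin (ρW g))) :
    ∃ (σ₀ : Fin t → 𝒢) (Qj : Fin t → Matrix (Fin 2) (Fin 2) (JT.joint h P).TT)
      (z : Fin g → (JT.joint h P).TT),
      FrD (JT.joint h P) hgk q ty A₀ Φ vv σ₀ Qj ∧
      (∀ i, z i ∈ maximalIdeal (JT.joint h P).TT) ∧
      maximalIdeal (JT.joint h P).TT ≤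
        Ideal.span {algebraMap O (JT.joint h P).TT ϖ} ⊔ Ideal.span (Set.range z) ⊔
        Ideal.span (parS q ty ε (PhiJ (JT.joint h P) hgk ty Φ vv Qj)
          (ZG.NJ (JT.joint h P) hgk ty Φ vv σ₀ Qj)) ⊔
        maximalIdeal (JT.joint h P).TT ^ 2 := by
  obtain ⟨σ₀, Qj, F⟩ := hL.H.exists_frD hL.hred
  obtain ⟨z, hz, hgen⟩ := gz_flat SD hp2 Q h P hfY hfW σ₀ Qj hL F
  exact ⟨σ₀, Qj, z, F, hz, hgen⟩

include SD hW in
/-- **Generators, case II.** -/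
theorem gens_ord (hss : W.IsSemistableModel) (hp2 : p ≠ 2) (hbad : (p : ℤ) ∣ W.Δ)
    (Q : TWn p (extW ρ (algebraMap (ZMod p) (ResidueField O))) S₀ A₀
        (ordL (extW ρ (algebraMap (ZMod p) (ResidueField O))) p) q Un r g n Sx)
    (h : HG hpO S (fun g => (extW ρ (algebraMap (ZMod p) (ResidueField O)) g).trace) ψ θT ρY)
    (P : JT.PtD hpO S ψ θT ρY χT ρW)
    (hL : LvH (JT.joint h P) hgk ϖ q ty ε A₀ Φ vv S₀ Un Q.S)
    (hord : ∀ σ ∈ (A₀ p).inertiaSubgroupIn ℚ, ∀ τ ∈ (A₀ p).inertiaSubgroupIn ℚ,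
      (h.R hgk τ - algebraMap O h.TT (cycO hpO τ) • (1 : Matrix (Fin 2) (Fin 2) h.TT)) *
        (h.R hgk σ - 1) = 0)
    (hu : ∀ Φp : 𝒢, (A₀ p).IsFrobeniusAt Φp p → ∀ Q Qi, OrdR h hgk (A₀ p) Q Qi →
        (Qi * h.R hgk Φp * Q) 1 1 ^ 2 = 1) :
    ∃ (σ₀ : Fin t → 𝒢) (Qj : Fin t → Matrix (Fin 2) (Fin 2) (JT.joint h P).TT)
      (z : Fin g → (JT.joint h P).TT),
      FrD (JT.joint h P) hgk q ty A₀ Φ vv σ₀ Qj ∧
      (∀ i, z i ∈ maximalIdeal (JT.joint h P).TT) ∧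
      maximalIdeal (JT.joint h P).TT ≤
        Ideal.span {algebraMap O (JT.joint h P).TT ϖ} ⊔ Ideal.span (Set.range z) ⊔
        Ideal.span (parS q ty ε (PhiJ (JT.joint h P) hgk ty Φ vv Qj)
          (ZG.NJ (JT.joint h P) hgk ty Φ vv σ₀ Qj)) ⊔
        maximalIdeal (JT.joint h P).TT ^ 2 := by
  obtain ⟨σ₀, Qj, F⟩ := hL.H.exists_frD hL.hred
  obtain ⟨z, hz, hgen⟩ := gz_ord SD hW hss hp2 hbad Q h P hord hu σ₀ Qj hL F
  exact ⟨σ₀, Qj, z, F, hz, hgen⟩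

end gens

end Fermat.Agent.CoreW
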