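import Fermat.Agent.CoreW.Gens
import Fermat.Agent.ZG.Main3
import Fermat.Agent.WPt.Ro

/-!
# Generators of the trace rings at the Taylor–Wiles levels, case III
-/

set_option autoImplicit false
set_option linter.unusedSectionVars false
set_option linter.style.haveILetI false

noncomputable section

namespace Fermat.Agent.CoreW

open Matrix IsLocalRing Fermat.Agent.GalRep Fermat.Agent.TW Fermat.Agent.Places Fermat.Agent.Flat
open Fermat.Agent.Cheb Fermat.Agent.KumG Fermat.Agent.MD Fermat.Agent.Sel Fermat.Agent.ImW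
open Fermat.Agent.WM Fermat.Agent.StR Fermat.Agent.JT
open Fermat.Agent.ZG (NData SDat TWn Det L0 LvH FrD parS PhiJ OrdR)
open Fermat.Agent.LC (ordL)

local notation "Ω" => AlgebraicClosure ℚ

local notation "𝒢" => (AlgebraicClosure ℚ) ≃ₐ[ℚ] (AlgebraicClosure ℚ)

variable {W : WeierstrassCurve ℤ} {p r₀ : ℕ} [hp : Fact p.Prime] {ρ : 𝒢 →* M2 (ZMod p)}
  {O : Type} [CommRing O] [IsDomain O] [IsDiscreteValuationRing O]
  [IsAdicComplete (maximalIdeal O) O] [CharZero O] [Finite (ResidueField O)]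
  {hpO : (p : O) ∈ maximalIdeal O} {ϖ : O} [Invertible (2 : O)]
  [Algebra (ZMod p) (ResidueField O)] {g₀ k₀ : 𝒢}
  {hgk : HG.IrrAt (fun g => (extW ρ (algebraMap (ZMod p) (ResidueField O)) g).trace) g₀ k₀}
  {ρW : 𝒢 →* M2 O} {t : ℕ} {q : Fin t → ℕ} {ty : Fin t → Ty} {S₀ Un : Finset ℕ}
  {ε : Fin t → ℤ} {A₀ : ℕ → ValuationSubring Ω} {Φ : Fin t → 𝒢} {vv : Fin t → Fin 2 → O}
  (SD : SDat W p r₀ ρ q ty S₀ Un ρW ε A₀ Φ vv)
  (hW : WPt.WRep W p hpO ρ (algebraMap (ZMod p) (ResidueField O)) g₀ ρW)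
  {S S' : Set ℕ} {r g n : ℕ} {Sx : Set ℕ}
  {T Y : Type} [CommRing T] [Algebra O T] [AddCommGroup Y] [Module O Y]
  [Module.Finite O Y] [Module.Free O Y] [Nontrivial Y]
  {ψ : T →ₐ[O] Module.End O Y} {θT : T →ₐ[O] ResidueField O} {ρY : GQ →* Module.End O Y}
  {T' Y' : Type} [CommRing T'] [Algebra O T'] [AddCommGroup Y'] [Module O Y']
  [Module.Finite O Y'] [Module.Free O Y'] [Nontrivial Y']
  {ψ' : T' →ₐ[O] Module.End O Y'} {θT' : T' →ₐ[O] ResidueField O} {ρY' : GQ →* Module.End O Y'}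
  {χT : T' →ₐ[O] O}

include SD hW in
/-- **Generators, case III**, for given frames: `h` = flat world (level prime to `p`), `h'` =
ordinary world (level divisible by `p`), `joint h' P` = its joint ring with the curve. -/
theorem gz_three (hres : ResW W p ρ) (hΔ : W.Δ ≠ 0) (hss : W.IsSemistableModel) (hp2 : p ≠ 2)
    (hbad : (p : ℤ) ∣ W.Δ)
    {ζ Pζ : Ω} {σ₁ : 𝒢} (hd : Det (A₀ p) p ζ Pζ σ₁)
    (h1 : extW ρ (algebraMap (ZMod p) (ResidueField O)) σ₁ = 1)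
    (Q : TWn p (extW ρ (algebraMap (ZMod p) (ResidueField O))) S₀ A₀
        (L0 p (extW ρ (algebraMap (ZMod p) (ResidueField O))) σ₁) q Un r g n Sx)
    (h : HG hpO S (fun g => (extW ρ (algebraMap (ZMod p) (ResidueField O)) g).trace) ψ θT ρY)
    (h' : HG hpO S' (fun g => (extW ρ (algebraMap (ZMod p) (ResidueField O)) g).trace)
      ψ' θT' ρY')
    (P : JT.PtD hpO S' ψ' θT' ρY' χT ρW)
    (π : (JT.joint h' P).TT →ₐ[O] h.TT) (hπ : ∀ g, π ((JT.joint h' P).tt g) = h.tt g)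
    (hred : redR (h.R hgk) h.theta.toRingHom = extW ρ (algebraMap (ZMod p) (ResidueField O)))
    (hfY : FlatAll p (A₀ p) (fun g => ρY g))
    (hord : ∀ σ ∈ (A₀ p).inertiaSubgroupIn ℚ, ∀ τ ∈ (A₀ p).inertiaSubgroupIn ℚ,
      (h'.R hgk τ - algebraMap O h'.TT (cycO hpO τ) • (1 : Matrix (Fin 2) (Fin 2) h'.TT)) *
        (h'.R hgk σ - 1) = 0)
    (Φp : 𝒢) (hΦp : (A₀ p).IsFrobeniusAt Φp p)
    (σ₀ : Fin t → 𝒢) (Qj : Fin t → Matrix (Fin 2) (Fin 2) (JT.joint h' P).TT)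
    (hL : LvH (JT.joint h' P) hgk ϖ q ty ε A₀ Φ vv S₀ Un Q.S)
    (F : FrD (JT.joint h' P) hgk q ty A₀ Φ vv σ₀ Qj) :
    ∃ Qa Qi, OrdR (JT.joint h' P) hgk (A₀ p) Qa Qi ∧
    (Qi * (JT.joint h' P).R hgk Φp * Qa) 1 1 ^ 2 - 1 ∈ maximalIdeal (JT.joint h' P).TT ∧
    (Qi * (JT.joint h' P).R hgk σ₁ * Qa) 0 1 ∈ maximalIdeal (JT.joint h' P).TT ∧
    ∃ z : Fin g → (JT.joint h' P).TT, (∀ i, z i ∈ maximalIdeal (JT.joint h' P).TT) ∧
      maximalIdeal (JT.joint h' P).TT ≤ Ideal.span {algebraMap O (JT.joint h' P).TT ϖ} ⊔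
        Ideal.span (Set.range (Fin.cons ((Qi * (JT.joint h' P).R hgk Φp * Qa) 1 1 ^ 2 - 1) z :
          Fin (g + 1) → (JT.joint h' P).TT)) ⊔
        Ideal.span {(Qi * (JT.joint h' P).R hgk σ₁ * Qa) 0 1} ⊔
        Ideal.span (parS q ty ε (PhiJ (JT.joint h' P) hgk ty Φ vv Qj)
          (ZG.NJ (JT.joint h' P) hgk ty Φ vv σ₀ Qj)) ⊔
        maximalIdeal (JT.joint h' P).TT ^ 2 ∧
      maximalIdeal h.TT ≤ Ideal.span {algebraMap O h.TT ϖ} ⊔
        Ideal.span (Set.range fun i => π ((Fin.cons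
          ((Qi * (JT.joint h' P).R hgk Φp * Qa) 1 1 ^ 2 - 1) z :
          Fin (g + 1) → (JT.joint h' P).TT) i)) ⊔
        Ideal.span (parS q ty ε (fun j => (PhiJ (JT.joint h' P) hgk ty Φ vv Qj j).map π)
          (fun j => (ZG.NJ (JT.joint h' P) hgk ty Φ vv σ₀ Qj j).map π)) ⊔
        maximalIdeal h.TT ^ 2 := by
  have hA := SD.lies p hp.out
  have hordJ := SDat.hord_joint h' P hss hbad hW hA hord
  obtain ⟨Qa, Qi, HO⟩ := ZG.exists_ordR (JT.joint h' P) hgk hp2 hA hordJ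
  exact ⟨Qa, Qi, HO, ZG.gen_three hd h1 Q hL F hA HO hΦp
    (WPt.res_ro hΔ hp2 hres hbad (hss p hp.out hbad) _) π hπ fun Jd Dd hD hpJ =>
    mem_flatS_of_flatAll h hgk hp2 hA hfY hred Jd Dd hD hpJ⟩

end Fermat.Agent.CoreW
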