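import Fermat.Agent.CoreW.TwLv
import Fermat.Agent.ZG.OW
import Fermat.Agent.WM.Flat

/-!
# Level lowering for semistable curves, level exactly divisible by `p`
-/

set_option autoImplicit false
set_option linter.unusedSectionVars false
set_option linter.style.haveILetI false

noncomputable section

namespace Fermat.Agent.CoreW

open Matrix IsLocalRing Fermat.Agent.GalRep Fermat.Agent.TW Fermat.Agent.Places Fermat.Agent.Flat
open Fermat.Agent.Cheb Fermat.Agent.KumG Fermat.Agent.MD Fermat.Agent.Sel Fermat.Agent.ImW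
open Fermat.Agent.WM Fermat.Agent.StR Fermat.Agent.JT Fermat.Agent.OrdH

local notation "Ω" => AlgebraicClosure ℚ

local notation "𝒢" => (AlgebraicClosure ℚ) ≃ₐ[ℚ] (AlgebraicClosure ℚ)

variable {W : WeierstrassCurve ℤ} {p : ℕ} [hp : Fact p.Prime] {ρ : 𝒢 →* M2 (ZMod p)}

set_option maxHeartbeats 40000000 in
/-- a minimal level divisible by `p` -/
theorem ord_min (hΔ : W.Δ ≠ 0) (hss : W.IsSemistableModel) (hp35 : p = 3 ∨ p = 5)
    (h : ResW W p ρ) (hd : (p : ℤ) ∣ W.Δ) {M : ℕ} [NeZero M] (hsq : Squarefree M) (hpM : p ∣ M)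
    (hmod : W.IsResiduallyModularOfLevel p M)
    (hmin : ∀ l, l.Prime → l ≠ p → l ∣ M → ¬ W.IsResiduallyModularOfLevel p (M / l))
    {q : ℕ} (hq : q.Prime) (hqp : q ≠ p) (hqM : q ∣ M) (hqu : Unr ρ q) : False := by
  have hp2 : p ≠ 2 := by rcases hp35 with h | h <;> omega
  have hc4 : ¬ (p : ℤ) ∣ W.c₄ := hss p hp.out hd
  obtain ⟨O, _, _, _, _, _, _, hmO, hroot⟩ := exists_wit p
  have hpO : (p : O) ∈ maximalIdeal O := by
    rw [hmO]; exact Ideal.mem_span_singleton_self _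
  haveI : CharP (ResidueField O) p := Fermat.Agent.TW.charP_res hpO
  letI : Algebra (ZMod p) (ResidueField O) := ZMod.algebra _ p
  set κ := algebraMap (ZMod p) (ResidueField O) with hκ
  have h2k : (2 : ResidueField O) ≠ 0 := WM.two_ne κ hp2
  have h2O : IsUnit (2 : O) := by
    by_contra hnu
    apply h2k
    have h1 : (2 : O) ∈ maximalIdeal O := (IsLocalRing.mem_maximalIdeal _).2 hnu
    rw [← map_ofNat (residue O)]
    exact (IsLocalRing.residue_eq_zero_iff _).2 h1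
  letI : Invertible (2 : O) := h2O.invertible
  let ι : AlgebraicClosure ℚ →+* ℂ := (IsAlgClosed.lift : AlgebraicClosure ℚ →ₐ[ℚ] ℂ).toRingHom
  obtain ⟨g₀, hg₀⟩ := h.g0
  obtain ⟨k₀, hk₀⟩ := h.k0
  have hg₀' : extW ρ κ g₀ 0 1 = 1 := by
    rw [extW_apply, hg₀, map_one]
  have hk₀' : extW ρ κ k₀ 1 0 ≠ 0 := by
    rw [extW_apply]
    exact fun h0 => hk₀ ((map_eq_zero _).1 h0)
  have hgk := irrAt_rep h2k (ext_conj h κ) hg₀' hk₀'
  obtain ⟨r', hr', hr'S, hr'12, -, hr'p, hr'g, -, hr'1, -, hr't⟩ := h.exists_rprime hΔ hss hp35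
    κ (S := (M.primeFactors : Set ℕ)) (Finset.finite_toSet _)
  have hr'M : ¬ r' ∣ M := fun hd => hr'S (by
    rw [Finset.mem_coe, Nat.mem_primeFactors]
    exact ⟨hr', hd, NeZero.ne M⟩)
  haveI : NeZero (M * r') := ⟨mul_ne_zero (NeZero.ne M) hr'.ne_zero⟩
  set S₀ := S0W W p (insert r' M.primeFactors) with hS₀def
  have hS₀ : S₀.Finite := S0W_finite hΔ _
  have hNS₀ : ∀ l, l.Prime → l ∣ M * r' → l ∈ S₀ := fun l hl hd => by
    apply mem_S0W
    rw [Finset.mem_insert, Nat.mem_primeFactors]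
    rcases (Nat.Prime.dvd_mul hl).1 hd with h1 | h1
    · exact Or.inr ⟨hl, h1, NeZero.ne M⟩
    · exact Or.inl ((Nat.prime_dvd_prime_iff_eq hl hr').1 h1)
  have hgood : ∀ l, l.Prime → l ∉ S₀ → W.IsGoodPrimeFor l := fun l _ hl => good_of_not_mem_S0W hl
  obtain ⟨Sb, hRes⟩ := resH_big h hΔ hp2 (k := ResidueField O)
  have hRO : LC.RO (extW ρ κ) p := WPt.res_ro hΔ hp2 h hd hc4 κ
  obtain ⟨M₁, hM₁⟩ := hpM
  have hpM₁ : ¬ p ∣ M₁ := by
    rintro ⟨c, rfl⟩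
    exact Nat.squarefree_iff_prime_squarefree.1 hsq p hp.out ⟨c, by rw [hM₁]; ring⟩
  have hM₁0 : M₁ ≠ 0 := by
    rintro rfl
    exact NeZero.ne M (by rw [hM₁, mul_zero])
  refine no_unr h hss hp35 hmO hpO ι hroot hg₀' hgk hsq hmod hmin hr' hr'p hr'M hr'12 hr'g hr'1
    (fun A hA Φ hΦ => (hr't A hA Φ hΦ).2) hS₀ p_mem_S0W hgood hNS₀
    (fun A => ZG.ordW (extW ρ κ) p A) (fun A _ => ZG.B1_le_ordW hRes.lc A)
    (fun A _ => ZG.ordW_le_Z1 A) (fun A hA => (ZG.finrank_ordW hRes hRO hA).2) ?_ hq hqp hqM hqu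
  intro r n B v A Φ hinj hvS hv N _ hN S hSS hNS X Ap hAp
  letI := X.hH
  letI := X.nt
  letI := X.fr
  intro I D hD hpI
  have hred := redR_eq X.hg hgk (ext_conj h κ) hg₀'
  have hN' : N = p * (M₁ * r') * ∏ i, v i := by rw [hN, hM₁]; ring
  have hvn : ∀ i, ¬ v i ∣ p * (M₁ * r') := fun i hdv => hvS i (hNS₀ _ (hv i).prime (by
    rw [hM₁, mul_assoc]
    exact hdv))
  have hpM' : ¬ p ∣ M₁ * r' := by
    intro hd
    rcases (hp.out.dvd_mul).1 hd with hd | hd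
    · exact hpM₁ hd
    · exact hr'p ((Nat.prime_dvd_prime_iff_eq hp.out hr').1 hd).symm
  obtain ⟨Q, Qi, H⟩ := ZG.exists_ordR X.hg hgk hp2 hAp fun σ hσ τ hτ =>
    hord_HG hΔ hp2 h hd hc4 hgk (fun i => (hv i).prime) hinj hvn (mul_ne_zero hM₁0 hr'.ne_zero)
      hpM' hN' X.hΔ X.hg hAp hσ hτ
  exact H.mem_ordW hAp hp2 h2k hred hRO hD hpI

/-- **Level lowering**, multiplicative reduction at `p` (any squarefree level). -/
theorem lowOrd' (hΔ : W.Δ ≠ 0) (hss : W.IsSemistableModel) (hp35 : p = 3 ∨ p = 5)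
    (h : ResW W p ρ) (hd : (p : ℤ) ∣ W.Δ) {M : ℕ} (hM : M ≠ 0) (hsq : Squarefree M)
    (hmod : W.IsResiduallyModularOfLevel p M) :
    ∃ M', M' ∣ M ∧ W.IsResiduallyModularOfLevel p M' ∧
      ∀ q, q.Prime → q ≠ p → q ∣ M' → ¬ Unr ρ q := by
  classical
  have hex : ∃ M', M' ∣ M ∧ W.IsResiduallyModularOfLevel p M' := ⟨M, dvd_rfl, hmod⟩
  obtain ⟨hd', hm⟩ := Nat.find_spec hex
  have h0 : Nat.find hex ≠ 0 := fun h0 => hM (by rw [h0] at hd'; exact zero_dvd_iff.1 hd')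
  haveI : NeZero (Nat.find hex) := ⟨h0⟩
  refine ⟨_, hd', hm, fun q hq hqp hqM hqu => ?_⟩
  have hmin : ∀ l, l.Prime → l ≠ p → l ∣ Nat.find hex →
      ¬ W.IsResiduallyModularOfLevel p (Nat.find hex / l) := fun l hl _ hld hmod' =>
    Nat.find_min hex (Nat.div_lt_self (Nat.pos_of_ne_zero h0) hl.one_lt)
      ⟨(Nat.div_dvd_of_dvd hld).trans hd', hmod'⟩
  by_cases hpM' : p ∣ Nat.find hex
  · exact ord_min hΔ hss hp35 h hd (hsq.squarefree_of_dvd hd') hpM' hm hmin hq hqp hqM hqu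
  · exact flat_min hΔ hss hp35 h (hsq.squarefree_of_dvd hd') hpM' hm hmin hq hqp hqM hqu

/-- **Level lowering at levels exactly divisible by `p`** (literally `WM.LowOrd W p ρ`). -/
theorem lowOrd (hΔ : W.Δ ≠ 0) (hss : W.IsSemistableModel) (hp35 : p = 3 ∨ p = 5)
    (h : ResW W p ρ) : (p : ℤ) ∣ W.Δ → ¬ p ∣ padicValInt p W.Δ → ∀ M : ℕ, M ≠ 0 → Squarefree M →
    p ∣ M → W.IsResiduallyModularOfLevel p M →
    ∃ M', M' ∣ M ∧ W.IsResiduallyModularOfLevel p M' ∧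
      ∀ q, q.Prime → q ≠ p → q ∣ M' → ¬ Unr ρ q :=
  fun hd _ _ hM hsq _ hmod => lowOrd' hΔ hss hp35 h hd hM hsq hmod

end Fermat.Agent.CoreW
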