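import Mathlib.NumberTheory.Padics.PadicVal.Basic
import Mathlib.Data.Nat.Squarefree
import Mathlib.Data.Nat.GCD.BigOperators

/-!
# Numbers for the base levels
-/

set_option autoImplicit false

namespace Fermat.Agent.CoreW

/-- the minimal base level -/
def baseN (pe r₀ : ℕ) (Un : Finset ℕ) : ℕ := pe * (r₀ * ∏ l ∈ Un, l)

/-- the base levels -/
def NJ (pe r₀ : ℕ) (Un : Finset ℕ) {t : ℕ} (q : Fin t → ℕ) (J : Finset (Fin t)) : ℕ :=
  baseN pe r₀ Un * ∏ j ∈ J, q j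

theorem NJ_empty (pe r₀ : ℕ) (Un : Finset ℕ) {t : ℕ} (q : Fin t → ℕ) :
    NJ pe r₀ Un q ∅ = baseN pe r₀ Un := by
  rw [NJ, Finset.prod_empty, mul_one]

theorem NJ_insert (pe r₀ : ℕ) (Un : Finset ℕ) {t : ℕ} (q : Fin t → ℕ) {J : Finset (Fin t)}
    {j : Fin t} (hj : j ∉ J) : NJ pe r₀ Un q (insert j J) = q j * NJ pe r₀ Un q J := by
  rw [NJ, Finset.prod_insert hj, NJ]
  ring

theorem NJ_mul (pe r₀ : ℕ) (Un : Finset ℕ) {t : ℕ} (q : Fin t → ℕ) (J : Finset (Fin t)) :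
    NJ pe r₀ Un q J = pe * NJ 1 r₀ Un q J := by
  rw [NJ, NJ, baseN, baseN]
  ring

theorem base_dvd (pe r₀ : ℕ) (Un : Finset ℕ) {t : ℕ} (q : Fin t → ℕ) (J : Finset (Fin t)) :
    baseN pe r₀ Un ∣ NJ pe r₀ Un q J := Dvd.intro _ rfl

theorem NJ_dvd (pe r₀ : ℕ) (Un : Finset ℕ) {t : ℕ} (q : Fin t → ℕ) {J J' : Finset (Fin t)}
    (h : J ⊆ J') : NJ pe r₀ Un q J ∣ NJ pe r₀ Un q J' :=
  mul_dvd_mul dvd_rfl (Finset.prod_dvd_prod_of_subset _ _ _ h)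

theorem r_dvd (pe r₀ : ℕ) (Un : Finset ℕ) {t : ℕ} (q : Fin t → ℕ) (J : Finset (Fin t)) :
    r₀ ∣ NJ pe r₀ Un q J :=
  ((dvd_mul_right r₀ _).trans (dvd_mul_left _ pe)).trans (base_dvd pe r₀ Un q J)

theorem pe_dvd (pe r₀ : ℕ) (Un : Finset ℕ) {t : ℕ} (q : Fin t → ℕ) (J : Finset (Fin t)) :
    pe ∣ NJ pe r₀ Un q J := (dvd_mul_right pe _).trans (base_dvd pe r₀ Un q J)

theorem prime_dvd_baseN {pe r₀ : ℕ} {Un : Finset ℕ} (hr : r₀.Prime) (hU : ∀ l ∈ Un, l.Prime)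
    {l : ℕ} (hl : l.Prime) : l ∣ baseN pe r₀ Un ↔ l ∣ pe ∨ l = r₀ ∨ l ∈ Un := by
  rw [baseN, hl.dvd_mul, hl.dvd_mul, Nat.prime_dvd_prime_iff_eq hl hr,
    hl.prime.dvd_finsetProd_iff]
  constructor
  · rintro (h | h | ⟨x, hx, h⟩)
    · exact Or.inl h
    · exact Or.inr (Or.inl h)
    · rw [Nat.prime_dvd_prime_iff_eq hl (hU x hx)] at h
      exact Or.inr (Or.inr (h ▸ hx))
  · rintro (h | h | h)
    · exact Or.inl h
    · exact Or.inr (Or.inl h)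
    · exact Or.inr (Or.inr ⟨l, h, dvd_rfl⟩)

theorem prime_dvd_NJ {pe r₀ : ℕ} {Un : Finset ℕ} (hr : r₀.Prime) (hU : ∀ l ∈ Un, l.Prime)
    {t : ℕ} {q : Fin t → ℕ} (hq : ∀ j, (q j).Prime) {J : Finset (Fin t)}
    {l : ℕ} (hl : l.Prime) :
    l ∣ NJ pe r₀ Un q J ↔ l ∣ pe ∨ l = r₀ ∨ l ∈ Un ∨ ∃ j ∈ J, q j = l := by
  rw [NJ, hl.dvd_mul, prime_dvd_baseN hr hU hl, hl.prime.dvd_finsetProd_iff]
  constructor
  · rintro ((h | h | h) | ⟨j, hj, h⟩)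
    · exact Or.inl h
    · exact Or.inr (Or.inl h)
    · exact Or.inr (Or.inr (Or.inl h))
    · rw [Nat.prime_dvd_prime_iff_eq hl (hq j)] at h
      exact Or.inr (Or.inr (Or.inr ⟨j, hj, h.symm⟩))
  · rintro (h | h | h | ⟨j, hj, h⟩)
    · exact Or.inl (Or.inl h)
    · exact Or.inl (Or.inr (Or.inl h))
    · exact Or.inl (Or.inr (Or.inr h))
    · exact Or.inr ⟨j, hj, h ▸ dvd_rfl⟩

/-- products of distinct primes are squarefree -/
theorem sqfree_prod {ι : Type*} [DecidableEq ι] (F : Finset ι) (f : ι → ℕ)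
    (hf : ∀ i ∈ F, (f i).Prime) (hinj : ∀ i ∈ F, ∀ j ∈ F, f i = f j → i = j) :
    Squarefree (∏ i ∈ F, f i) := by
  induction F using Finset.induction_on with
  | empty => rw [Finset.prod_empty]; exact squarefree_one
  | insert i F hi ih =>
    rw [Finset.prod_insert hi]
    have hc : Nat.Coprime (f i) (∏ j ∈ F, f j) := by
      refine Nat.Coprime.prod_right fun j hj => ?_
      refine (Nat.coprime_primes (hf i (Finset.mem_insert_self i F))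
        (hf j (Finset.mem_insert_of_mem hj))).2 fun h => hi ?_
      rw [hinj i (Finset.mem_insert_self i F) j (Finset.mem_insert_of_mem hj) h]
      exact hj
    rw [Nat.squarefree_mul hc]
    exact ⟨(hf i (Finset.mem_insert_self i F)).squarefree, ih
      (fun j hj => hf j (Finset.mem_insert_of_mem hj))
      (fun j hj j' hj' => hinj j (Finset.mem_insert_of_mem hj) j' (Finset.mem_insert_of_mem hj'))⟩

theorem coprime_of_primes {a b : ℕ} (h : ∀ l : ℕ, l.Prime → l ∣ a → l ∣ b → False) :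
    Nat.Coprime a b := by
  by_contra hn
  obtain ⟨l, hl, ha, hb⟩ := Nat.Prime.not_coprime_iff_dvd.1 hn
  exact h l hl ha hb

theorem squarefree_baseN {pe r₀ : ℕ} {Un : Finset ℕ} (hr : r₀.Prime) (hU : ∀ l ∈ Un, l.Prime)
    (hpe : Squarefree pe) (hper : ¬ r₀ ∣ pe) (hpeU : ∀ l ∈ Un, ¬ l ∣ pe) (hrU : r₀ ∉ Un) :
    Squarefree (baseN pe r₀ Un) := by
  classical
  have h1 : Squarefree (∏ l ∈ Un, l) := sqfree_prod Un id hU fun _ _ _ _ h => h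
  have hprod : ∀ l : ℕ, l.Prime → l ∣ ∏ l ∈ Un, l → l ∈ Un := fun l hl h => by
    obtain ⟨x, hx, h⟩ := (hl.prime.dvd_finsetProd_iff _).1 h
    rw [Nat.prime_dvd_prime_iff_eq hl (hU x hx)] at h
    exact h ▸ hx
  have h2 : Nat.Coprime r₀ (∏ l ∈ Un, l) := coprime_of_primes fun l hl ha hb => by
    rw [Nat.prime_dvd_prime_iff_eq hl hr] at ha
    exact hrU (ha ▸ hprod l hl hb)
  have h3 : Squarefree (r₀ * ∏ l ∈ Un, l) := (Nat.squarefree_mul h2).2 ⟨hr.squarefree, h1⟩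
  have h4 : Nat.Coprime pe (r₀ * ∏ l ∈ Un, l) := coprime_of_primes fun l hl ha hb => by
    rcases hl.dvd_mul.1 hb with hb | hb
    · rw [Nat.prime_dvd_prime_iff_eq hl hr] at hb
      exact hper (hb ▸ ha)
    · exact hpeU l (hprod l hl hb) ha
  exact (Nat.squarefree_mul h4).2 ⟨hpe, h3⟩

theorem squarefree_NJ {pe r₀ : ℕ} {Un : Finset ℕ} (hr : r₀.Prime) (hU : ∀ l ∈ Un, l.Prime)
    (hpe : Squarefree pe) (hper : ¬ r₀ ∣ pe) (hpeU : ∀ l ∈ Un, ¬ l ∣ pe) (hrU : r₀ ∉ Un)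
    {t : ℕ} {q : Fin t → ℕ} (hq : ∀ j, (q j).Prime) (hinj : Function.Injective q)
    (hpeq : ∀ j, ¬ q j ∣ pe) (hrq : ∀ j, q j ≠ r₀) (hqU : ∀ j, q j ∉ Un) (J : Finset (Fin t)) :
    Squarefree (NJ pe r₀ Un q J) := by
  classical
  have h1 : Squarefree (∏ j ∈ J, q j) := sqfree_prod J q (fun j _ => hq j) fun _ _ _ _ h => hinj h
  have h4 : Nat.Coprime (baseN pe r₀ Un) (∏ j ∈ J, q j) := coprime_of_primes fun l hl ha hb => by
    obtain ⟨j, hj, h⟩ := (hl.prime.dvd_finsetProd_iff _).1 hb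
    rw [Nat.prime_dvd_prime_iff_eq hl (hq j)] at h
    rw [h, prime_dvd_baseN hr hU (hq j)] at ha
    rcases ha with h1 | h1 | h1
    · exact hpeq j h1
    · exact hrq j h1
    · exact hqU j h1
  rw [NJ, Nat.squarefree_mul h4]
  exact ⟨squarefree_baseN hr hU hpe hper hpeU hrU, h1⟩

theorem baseN_pos {pe r₀ : ℕ} {Un : Finset ℕ} (hr : r₀.Prime) (hU : ∀ l ∈ Un, l.Prime)
    (hpe : 0 < pe) : 0 < baseN pe r₀ Un :=
  Nat.mul_pos hpe (Nat.mul_pos hr.pos (Finset.prod_pos fun l hl => (hU l hl).pos))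

theorem NJ_pos {pe r₀ : ℕ} {Un : Finset ℕ} (hr : r₀.Prime) (hU : ∀ l ∈ Un, l.Prime)
    (hpe : 0 < pe) {t : ℕ} {q : Fin t → ℕ} (hq : ∀ j, (q j).Prime) (J : Finset (Fin t)) :
    0 < NJ pe r₀ Un q J :=
  Nat.mul_pos (baseN_pos hr hU hpe) (Finset.prod_pos fun j _ => (hq j).pos)

/-- a squarefree number divides `b` if all its prime divisors do -/
theorem sqfree_dvd {a b : ℕ} (ha : Squarefree a) (h : ∀ l : ℕ, l.Prime → l ∣ a → l ∣ b) : a ∣ b := by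
  rw [← Nat.prod_primeFactors_of_squarefree ha]
  refine Finset.prod_primes_dvd b (fun l hl => (Nat.prime_of_mem_primeFactors hl).prime)
    fun l hl => h l (Nat.prime_of_mem_primeFactors hl) (Nat.dvd_of_mem_primeFactors hl)

end Fermat.Agent.CoreW
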