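import Fermat.Agent.CoreW.Setup
import Fermat.Agent.ZG.Main3
import Fermat.Agent.ZG.LvW
import Fermat.Agent.WPt.Ro
import Fermat.Agent.WM.Flat
import Fermat.Agent.WM.Char0
import Fermat.Agent.StR.FinR
import Fermat.Agent.StR.FinX

/-!
# The core of the modularity lifting theorem, from the Taylor–Wiles levels
-/

set_option autoImplicit false
set_option linter.unusedSectionVars false
set_option linter.style.haveILetI false

noncomputable section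

namespace Fermat.Agent.CoreW

open Matrix IsLocalRing Fermat.Agent.GalRep Fermat.Agent.TW Fermat.Agent.Places Fermat.Agent.Flat
open Fermat.Agent.Cheb Fermat.Agent.KumG Fermat.Agent.MD Fermat.Agent.Sel Fermat.Agent.ImW
open Fermat.Agent.WM Fermat.Agent.StR Fermat.Agent.JT
open Fermat.Agent.ZG (NData SDat TWn Det L0)
open Fermat.Agent.LC (ordL)
open ModularFormClass

local notation "Ω" => AlgebraicClosure ℚ

local notation "𝒢" => (AlgebraicClosure ℚ) ≃ₐ[ℚ] (AlgebraicClosure ℚ)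

/-- no modularity at squarefree levels prime to `p` -/
def NoFlat (W : WeierstrassCurve ℤ) (p : ℕ) : Prop :=
  ∀ M : ℕ, M ≠ 0 → Squarefree M → ¬ p ∣ M → ¬ W.IsResiduallyModularOfLevel p M

/-- **Inner theorem, case I.** -/
def StepI (W : WeierstrassCurve ℤ) (p : ℕ) [Fact p.Prime] (ρ : 𝒢 →* M2 (ZMod p)) : Prop :=
  ∀ (O : Type) [CommRing O] [IsDomain O] [IsDiscreteValuationRing O]
    [IsAdicComplete (maximalIdeal O) O] [CharZero O] [Finite (ResidueField O)]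
    (hpO : (p : O) ∈ maximalIdeal O) (_ : maximalIdeal O = Ideal.span {(p : O)})
    (_ : AlgebraicClosure ℚ →+* ℂ) [Invertible (2 : O)] [Algebra (ZMod p) (ResidueField O)]
    (g₀ k₀ : 𝒢)
    (_ : HG.IrrAt (fun g => (extW ρ (algebraMap (ZMod p) (ResidueField O)) g).trace) g₀ k₀)
    (ρW : 𝒢 →* M2 O) (_ : WPt.WRep W p hpO ρ (algebraMap (ZMod p) (ResidueField O)) g₀ ρW)
    (r₀ t : ℕ) (q : Fin t → ℕ) (ty : Fin t → Ty) (S₀ Un : Finset ℕ)
    (D : BData W p r₀ ρ (ResidueField O) q ty S₀ Un 1)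
    (_ : W.IsResiduallyModularOfLevel p (baseN 1 r₀ Un))
    (ε : Fin t → ℤ) (A₀ : ℕ → ValuationSubring Ω) (Φ : Fin t → 𝒢) (vv : Fin t → Fin 2 → O)
    (_ : SDat W p r₀ ρ q ty S₀ Un ρW ε A₀ Φ vv)
    (_ : W.IsGoodPrimeFor p) (r g : ℕ)
    (_ : ∀ n, 1 ≤ n → ∀ S' : Set ℕ, S'.Finite →
      Nonempty (TWn p (extW ρ (algebraMap (ZMod p) (ResidueField O))) S₀ A₀
        (flatL (extW ρ (algebraMap (ZMod p) (ResidueField O))) p) q Un r g n S'))
    (_ : NeZero (NJ 1 r₀ Un q Finset.univ))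
    (s : TS O (S₀ : Set ℕ)) (_ : phiG O (D.hNS₀ Finset.univ) s = 0),
    ∃ B : ℕ, ∀ n, Nonempty (RLev O (p : O) p r g t B ty q ε
      (MvPolynomial.aeval (fun i : IS (S₀ : Set ℕ) => aW O W i) s) n)

/-- **Inner theorem, case II.** -/
def StepII (W : WeierstrassCurve ℤ) (p : ℕ) [Fact p.Prime] (ρ : 𝒢 →* M2 (ZMod p)) : Prop :=
  ∀ (O : Type) [CommRing O] [IsDomain O] [IsDiscreteValuationRing O]
    [IsAdicComplete (maximalIdeal O) O] [CharZero O] [Finite (ResidueField O)]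
    (hpO : (p : O) ∈ maximalIdeal O) (_ : maximalIdeal O = Ideal.span {(p : O)})
    (_ : AlgebraicClosure ℚ →+* ℂ) [Invertible (2 : O)] [Algebra (ZMod p) (ResidueField O)]
    (g₀ k₀ : 𝒢)
    (_ : HG.IrrAt (fun g => (extW ρ (algebraMap (ZMod p) (ResidueField O)) g).trace) g₀ k₀)
    (ρW : 𝒢 →* M2 O) (_ : WPt.WRep W p hpO ρ (algebraMap (ZMod p) (ResidueField O)) g₀ ρW)
    (r₀ t : ℕ) (q : Fin t → ℕ) (ty : Fin t → Ty) (S₀ Un : Finset ℕ)
    (D : BData W p r₀ ρ (ResidueField O) q ty S₀ Un p)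
    (_ : W.IsResiduallyModularOfLevel p (baseN p r₀ Un))
    (ε : Fin t → ℤ) (A₀ : ℕ → ValuationSubring Ω) (Φ : Fin t → 𝒢) (vv : Fin t → Fin 2 → O)
    (_ : SDat W p r₀ ρ q ty S₀ Un ρW ε A₀ Φ vv)
    (_ : (p : ℤ) ∣ W.Δ) (_ : NoFlat W p) (r g : ℕ)
    (_ : ∀ n, 1 ≤ n → ∀ S' : Set ℕ, S'.Finite →
      Nonempty (TWn p (extW ρ (algebraMap (ZMod p) (ResidueField O))) S₀ A₀
        (ordL (extW ρ (algebraMap (ZMod p) (ResidueField O))) p) q Un r g n S'))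
    (_ : NeZero (NJ p r₀ Un q Finset.univ))
    (s : TS O (S₀ : Set ℕ)) (_ : phiG O (D.hNS₀ Finset.univ) s = 0),
    ∃ B : ℕ, ∀ n, Nonempty (RLev O (p : O) p r g t B ty q ε
      (MvPolynomial.aeval (fun i : IS (S₀ : Set ℕ) => aW O W i) s) n)

/-- **Inner theorem, case III.** -/
def StepIII (W : WeierstrassCurve ℤ) (p : ℕ) [Fact p.Prime] (ρ : 𝒢 →* M2 (ZMod p)) : Prop :=
  ∀ (O : Type) [CommRing O] [IsDomain O] [IsDiscreteValuationRing O]
    [IsAdicComplete (maximalIdeal O) O] [CharZero O] [Finite (ResidueField O)]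
    (hpO : (p : O) ∈ maximalIdeal O) (_ : maximalIdeal O = Ideal.span {(p : O)})
    (_ : AlgebraicClosure ℚ →+* ℂ) [Invertible (2 : O)] [Algebra (ZMod p) (ResidueField O)]
    (g₀ k₀ : 𝒢)
    (_ : HG.IrrAt (fun g => (extW ρ (algebraMap (ZMod p) (ResidueField O)) g).trace) g₀ k₀)
    (ρW : 𝒢 →* M2 O) (_ : WPt.WRep W p hpO ρ (algebraMap (ZMod p) (ResidueField O)) g₀ ρW)
    (r₀ t : ℕ) (q : Fin t → ℕ) (ty : Fin t → Ty) (S₀ Un : Finset ℕ)
    (D : BData W p r₀ ρ (ResidueField O) q ty S₀ Un 1)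
    (_ : W.IsResiduallyModularOfLevel p (baseN 1 r₀ Un))
    (ε : Fin t → ℤ) (A₀ : ℕ → ValuationSubring Ω) (Φ : Fin t → 𝒢) (vv : Fin t → Fin 2 → O)
    (_ : SDat W p r₀ ρ q ty S₀ Un ρW ε A₀ Φ vv)
    (_ : (p : ℤ) ∣ W.Δ) (ζ P : Ω) (σ₁ : 𝒢) (_ : Det (A₀ p) p ζ P σ₁)
    (_ : extW ρ (algebraMap (ZMod p) (ResidueField O)) σ₁ = 1) (r g : ℕ)
    (_ : ∀ n, 1 ≤ n → ∀ S' : Set ℕ, S'.Finite →
      Nonempty (TWn p (extW ρ (algebraMap (ZMod p) (ResidueField O))) S₀ A₀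
        (L0 p (extW ρ (algebraMap (ZMod p) (ResidueField O))) σ₁) q Un r g n S'))
    (_ : NeZero (NJ p r₀ Un q Finset.univ))
    (s : TS O (S₀ : Set ℕ)) (_ : phiG O ((D.change (Or.inr rfl)).hNS₀ Finset.univ) s = 0),
    ∃ B : ℕ, ∀ n, Nonempty (XLev O (p : O) p r g t B ty q ε
      (MvPolynomial.aeval (fun i : IS (S₀ : Set ℕ) => aW O W i) s) n)

section aux

variable {W : WeierstrassCurve ℤ} {p r₀ : ℕ} [hp : Fact p.Prime] {ρ : 𝒢 →* M2 (ZMod p)}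
  {O : Type} [CommRing O] [IsDomain O] [IsDiscreteValuationRing O]
  [IsAdicComplete (maximalIdeal O) O] [CharZero O] [Finite (ResidueField O)]
  {hpO : (p : O) ∈ maximalIdeal O} {ϖ : O}
  [Algebra (ZMod p) (ResidueField O)] {g₀ k₀ : 𝒢} {ρW : 𝒢 →* M2 O}
  {t : ℕ} {q : Fin t → ℕ} {ty : Fin t → Ty} {S₀ Un : Finset ℕ} {pe : ℕ}
  {ε : Fin t → ℤ} {A₀ : ℕ → ValuationSubring Ω} {Φ : Fin t → 𝒢} {vv : Fin t → Fin 2 → O}

/-- at the primes of scalar type, `q = 1` in the residue field -/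
theorem q_one (SD : SDat W p r₀ ρ q ty S₀ Un ρW ε A₀ Φ vv)
    (hW : WPt.WRep W p hpO ρ (algebraMap (ZMod p) (ResidueField O)) g₀ ρW)
    (hmax : maximalIdeal O = Ideal.span {ϖ}) (j : Fin t) (hj : ty j = Ty.sc) :
    ϖ ∣ (q j : O) - 1 := by
  obtain ⟨⟨hq, hqb⟩, hqp, hqu⟩ := SD.hq j
  have hdet : (extW ρ (algebraMap (ZMod p) (ResidueField O)) (Φ j)).det =
      (q j : ResidueField O) := by
    rw [SD.nd.num.det, cyc_frobenius ((Nat.coprime_primes hq hp.out).2 hqp)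
      (SD.lies _ hq) (SD.frob j), map_natCast]
  have htr := SD.res_tr hW j
  obtain ⟨a, ha⟩ := SD.nd.num.hqs j hj _ (SD.lies _ hq) _ (SD.frob j)
  have h1 : ((q j : O) - 1) ∈ maximalIdeal O := by
    rw [← IsLocalRing.residue_eq_zero_iff, map_sub, map_natCast, map_one, sub_eq_zero]
    have e1 : a * a = (q j : ResidueField O) := by
      rw [← hdet, ha, Matrix.det_fin_two]
      simp
    have e2 : 2 * a = ε j * ((q j : ResidueField O) + 1) := by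
      rw [← htr, ha, Matrix.trace_fin_two]
      simp
      ring
    have e3 : (ε j : ResidueField O) * ε j = 1 := by
      rcases SD.heps j with h | h <;> rw [h] <;> simp
    have e4 : ((q j : ResidueField O) - 1) * ((q j : ResidueField O) - 1) = 0 := by
      have e5 : (2 * a) * (2 * a) = 4 * (q j : ResidueField O) := by linear_combination 4 * e1
      rw [e2] at e5
      linear_combination e5 - ((q j : ResidueField O) + 1) ^ 2 * e3
    exact sub_eq_zero.1 (mul_self_eq_zero.1 e4)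
  rw [hmax] at h1
  exact Ideal.mem_span_singleton.1 h1

theorem eps_sq (SD : SDat W p r₀ ρ q ty S₀ Un ρW ε A₀ Φ vv) (j : Fin t) : ε j ^ 2 = 1 := by
  rcases SD.heps j with h | h <;> rw [h] <;> norm_num

/-- **From the vanishing to the form.** -/
theorem form_of (D : BData W p r₀ ρ (ResidueField O) q ty S₀ Un pe)
    (hpe : (p : ℤ) ∣ W.Δ → pe = p) [NeZero (NJ pe r₀ Un q Finset.univ)]
    (h : ∀ s : TS O (S₀ : Set ℕ), phiG O (D.hNS₀ Finset.univ) s = 0 →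
      MvPolynomial.aeval (fun i : IS (S₀ : Set ℕ) => aW O W i) s = 0) :
    ∃ N : ℕ, N ≠ 0 ∧ Squarefree N ∧ (∀ ℓ : ℕ, ℓ.Prime → (ℓ : ℤ) ∣ W.Δ → ℓ ∣ N) ∧
      ∃ g : CuspForm (CongruenceSubgroup.Gamma0 N) 2, g.IsNormalizedEigenform ∧
      ∀ l : ℕ, l.Prime → ¬ l ∣ N → l ≠ p → qCoeff g l = ((W.apOfModel l : ℤ) : ℂ) := by
  have hpdvd : (p : ℤ) ∣ W.Δ → p ∣ NJ pe r₀ Un q Finset.univ := fun hd =>
    (D.p_dvd_iff Finset.univ).2 (hpe hd)
  refine ⟨NJ pe r₀ Un q Finset.univ, (D.pos _).ne', D.sqfree _, fun ℓ hℓ hd => ?_, ?_⟩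
  · by_cases hℓp : ℓ = p
    · subst hℓp
      exact hpdvd hd
    · exact D.bad_dvd hℓ (fun hg => hg hd) hℓp
  obtain ⟨g, hg, hgl⟩ := exists_form_of_occ0 (O := O) (D.hNS₀ Finset.univ)
    (fun l => W.apOfModel l) h
  refine ⟨g, hg, fun l hl hlN hlp => hgl l hl fun hlS => ?_⟩
  rcases (D.nd.mem l).1 hlS with h1 | h1 | h1
  · exact hlp h1
  · exact hlN (h1 ▸ r_dvd pe r₀ Un q Finset.univ)
  · exact hlN (D.bad_dvd hl h1.2 hlp)

end aux

variable {W : WeierstrassCurve ℤ} {p : ℕ} [hp : Fact p.Prime] {ρ : 𝒢 →* M2 (ZMod p)}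

set_option maxHeartbeats 4000000 in
/-- **The core of the modularity lifting theorem.** -/
theorem core_of (hΔ : W.Δ ≠ 0) (hss : W.IsSemistableModel) (hp35 : p = 3 ∨ p = 5)
    (h : ResW W p ρ) (h1 : StepI W p ρ) (h2 : StepII W p ρ) (h3 : StepIII W p ρ)
    (M : ℕ) (_ : M ≠ 0) (hsq : Squarefree M)
    (hmin : ∀ q, q.Prime → q ∣ M → q ≠ p → ¬ Unr ρ q)
    (hpM : p ∣ M → (p : ℤ) ∣ W.Δ ∧ NoFlat W p) (hmod : W.IsResiduallyModularOfLevel p M) :
    ∃ N : ℕ, N ≠ 0 ∧ Squarefree N ∧ (∀ ℓ : ℕ, ℓ.Prime → (ℓ : ℤ) ∣ W.Δ → ℓ ∣ N) ∧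
      ∃ g : CuspForm (CongruenceSubgroup.Gamma0 N) 2, g.IsNormalizedEigenform ∧
      ∀ l : ℕ, l.Prime → ¬ l ∣ N → l ≠ p → qCoeff g l = ((W.apOfModel l : ℤ) : ℂ) := by
  have hp2 : p ≠ 2 := by rcases hp35 with h | h <;> omega
  obtain ⟨O, _, _, _, _, _, _, hmO, hroot⟩ := exists_wit p
  have hpO : (p : O) ∈ maximalIdeal O := by
    rw [hmO]; exact Ideal.mem_span_singleton_self _
  have hp0 : (p : O) ≠ 0 := Nat.cast_ne_zero.2 hp.out.ne_zero
  haveI : CharP (ResidueField O) p := Fermat.Agent.TW.charP_res hpO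
  letI : Algebra (ZMod p) (ResidueField O) := ZMod.algebra _ p
  have h2k : (2 : ResidueField O) ≠ 0 := WM.two_ne (algebraMap (ZMod p) (ResidueField O)) hp2
  have h2O : IsUnit (2 : O) := by
    by_contra hnu
    apply h2k
    have h1 : (2 : O) ∈ maximalIdeal O := (IsLocalRing.mem_maximalIdeal _).2 hnu
    rw [← map_ofNat (residue O)]
    exact (IsLocalRing.residue_eq_zero_iff _).2 h1
  letI : Invertible (2 : O) := h2O.invertible
  let ι : AlgebraicClosure ℚ →+* ℂ := (IsAlgClosed.lift : AlgebraicClosure ℚ →ₐ[ℚ] ℂ).toRingHom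
  obtain ⟨g₀, hg₀⟩ := h.g0
  obtain ⟨k₀, hk₀⟩ := h.k0
  have hg₀' : extW ρ (algebraMap (ZMod p) (ResidueField O)) g₀ 0 1 = 1 := by
    rw [extW_apply, hg₀, map_one]
  have hk₀' : extW ρ (algebraMap (ZMod p) (ResidueField O)) k₀ 1 0 ≠ 0 := by
    rw [extW_apply]
    exact fun h0 => hk₀ ((map_eq_zero _).1 h0)
  have hgk := irrAt_rep h2k (ext_conj h (algebraMap (ZMod p) (ResidueField O))) hg₀' hk₀'
  obtain ⟨ρW, hW⟩ := WPt.exists_WRep hΔ hp2 hpO h (algebraMap (ZMod p) (ResidueField O)) hg₀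
  obtain ⟨r₀, t, q, ty, S₀, Un, -, hD⟩ := exists_bData (k := ResidueField O) h hΔ hss hp35 hroot
    Set.finite_empty
  have D1 := hD 1 (Or.inl rfl)
  have Dp := hD p (Or.inr rfl)
  obtain ⟨ε, A₀, Φ, vv, SD⟩ := ZG.exists_sDat hss D1.nd hW
  have hA₀ : ∀ v ∈ S₀, (A₀ v).LiesOverPrime v := fun v hv => SD.lies v (SD.nd.num.prime v hv)
  have hq0 : ∀ j, q j ≠ 0 := fun j => (D1.primeq j).ne_zero
  haveI : NeZero (NJ 1 r₀ Un q Finset.univ) := D1.neZero _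
  haveI : NeZero (NJ p r₀ Un q Finset.univ) := Dp.neZero _
  by_cases hpM' : p ∣ M
  · -- case II
    obtain ⟨hd, hno⟩ := hpM hpM'
    have hmodN := Dp.modular h hsq hmin (fun _ => rfl) hmod
    have hc4 := hss p hp.out hd
    obtain ⟨r, g, hrg, hTW⟩ := ZG.num_ord SD.nd.num hA₀
      (WPt.res_ro hΔ hp2 h hd hc4 (algebraMap (ZMod p) (ResidueField O)))
    refine form_of Dp (fun _ => rfl) fun s hs => ?_
    obtain ⟨B, hB⟩ := h2 O hpO hmO ι g₀ k₀ hgk ρW hW r₀ t q ty S₀ Un Dp hmodN ε A₀ Φ vv SD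
      hd hno r g hTW inferInstance s hs
    exact lift_of_RLev hp0 hmO hpO (q_one SD hW hmO) (eps_sq SD) hq0 (fun n => (hB n).some)
      hrg.le
  · have hmodN := D1.modular h hsq hmin (fun hd => absurd hd hpM') hmod
    haveI : NeZero (baseN 1 r₀ Un) := ⟨D1.base_pos.ne'⟩
    haveI : NeZero (baseN 1 r₀ Un * r₀) := ⟨mul_ne_zero D1.base_pos.ne' D1.hr.ne_zero⟩
    have hpb : ¬ p ∣ baseN 1 r₀ Un := fun hd => by
      have h1 := (D1.p_dvd_iff ∅).1 (hd.trans (base_dvd 1 r₀ Un q ∅))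
      exact hp.out.one_lt.ne h1
    have hfl : FlC (A₀ p) (hA₀ p SD.nd.num.mem) (Fin 2 → ResidueField O)
        (fun σ v => endV (extW ρ (algebraMap (ZMod p) (ResidueField O))) σ v) :=
      flat_W h hp2 hmO ι _ (Finset.finite_toSet S₀) D1.p_mem (fun l hl hS => D1.good hl hS) hpb
        hmodN D1.hrp D1.hr D1.hr12 (fun l hl hd => by
          rcases hl.dvd_mul.1 hd with hd | hd
          · exact D1.hNS₀ ∅ l hl (hd.trans (base_dvd 1 r₀ Un q ∅))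
          · exact D1.hNS₀ ∅ l hl (hd.trans (r_dvd 1 r₀ Un q ∅))) hg₀' hgk hpO _
    by_cases hg : W.IsGoodPrimeFor p
    · -- case I
      obtain ⟨r, g, hrg, hTW⟩ := ZG.num_flat SD.nd.num hA₀ hfl
      refine form_of D1 (fun hd => absurd hd hg) fun s hs => ?_
      obtain ⟨B, hB⟩ := h1 O hpO hmO ι g₀ k₀ hgk ρW hW r₀ t q ty S₀ Un D1 hmodN ε A₀ Φ
        vv SD hg r g hTW inferInstance s hs
      exact lift_of_RLev hp0 hmO hpO (q_one SD hW hmO) (eps_sq SD) hq0 (fun n => (hB n).some)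
        hrg.le
    · -- case III
      have hd : (p : ℤ) ∣ W.Δ := not_not.1 hg
      have hc4 := hss p hp.out hd
      obtain ⟨ζ, P, σ₁, hdet, hσ₁, r, g, hrg, hTW⟩ := ZG.num_three SD.nd.num hA₀
        (WPt.res_ro hΔ hp2 h hd hc4 (algebraMap (ZMod p) (ResidueField O))) hfl
      refine form_of Dp (fun _ => rfl) fun s hs => ?_
      obtain ⟨B, hB⟩ := h3 O hpO hmO ι g₀ k₀ hgk ρW hW r₀ t q ty S₀ Un D1 hmodN ε A₀ Φ
        vv SD hd ζ P σ₁ hdet hσ₁ r g hTW inferInstance s hs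
      exact lift_of_XLev hp0 hmO hpO (q_one SD hW hmO) (eps_sq SD) hq0 (fun n => (hB n).some)
        hrg.le

end Fermat.Agent.CoreW
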