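import Fermat.Agent.CoreW.StepA
import Fermat.Agent.CoreW.Gens
import Fermat.Agent.CoreW.Shell
import Fermat.Agent.CoreW.TwLv

/-!
# The inner theorems, cases I and II
-/

set_option autoImplicit false
set_option linter.unusedSectionVars false
set_option linter.style.haveILetI false

noncomputable section

namespace Fermat.Agent.CoreW

open Matrix IsLocalRing Fermat.Agent.GalRep Fermat.Agent.TW Fermat.Agent.Places Fermat.Agent.Flat
open Fermat.Agent.Cheb Fermat.Agent.KumG Fermat.Agent.MD Fermat.Agent.Sel Fermat.Agent.ImW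
open Fermat.Agent.WM Fermat.Agent.StR Fermat.Agent.JT
open Fermat.Agent.ZG (NData SDat TWn Det L0 LvH FrD parS PhiJ OrdR)
open Fermat.Agent.LC (ordL)

local notation "Ω" => AlgebraicClosure ℚ

local notation "𝒢" => (AlgebraicClosure ℚ) ≃ₐ[ℚ] (AlgebraicClosure ℚ)

section gens

variable {W : WeierstrassCurve ℤ} {p r₀ : ℕ} [hp : Fact p.Prime] {ρ : 𝒢 →* M2 (ZMod p)}
  {O : Type} [CommRing O] [IsDomain O] [IsDiscreteValuationRing O]
  [IsAdicComplete (maximalIdeal O) O] [CharZero O] [Finite (ResidueField O)]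
  {hpO : (p : O) ∈ maximalIdeal O} {ϖ : O} [Invertible (2 : O)]
  [Algebra (ZMod p) (ResidueField O)] {g₀ k₀ : 𝒢}
  {hgk : HG.IrrAt (fun g => (extW ρ (algebraMap (ZMod p) (ResidueField O)) g).trace) g₀ k₀}
  {ρW : 𝒢 →* M2 O} {t : ℕ} {q : Fin t → ℕ} {ty : Fin t → Ty} {S₀ Un : Finset ℕ}
  {S : Set ℕ} {r : ℕ}
  {T Y : Type} [CommRing T] [Algebra O T] [AddCommGroup Y] [Module O Y]
  [Module.Finite O Y] [Module.Free O Y] [Nontrivial Y]
  {ψ : T →ₐ[O] Module.End O Y} {θT : T →ₐ[O] ResidueField O} {ρY : GQ →* Module.End O Y}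
  {χT : T →ₐ[O] O} {g n : ℕ} {Sx : Set ℕ}
  {ε : Fin t → ℤ} {A₀ : ℕ → ValuationSubring Ω} {Φ : Fin t → 𝒢} {vv : Fin t → Fin 2 → O}
  (SD : SDat W p r₀ ρ q ty S₀ Un ρW ε A₀ Φ vv)
  (hW : WPt.WRep W p hpO ρ (algebraMap (ZMod p) (ResidueField O)) g₀ ρW)

include SD in
/-- **Generators, case I.** -/
theorem gens_flat' (hp2 : p ≠ 2)
    (Q : TWn p (extW ρ (algebraMap (ZMod p) (ResidueField O))) S₀ A₀
        (flatL (extW ρ (algebraMap (ZMod p) (ResidueField O))) p) q Un r g n Sx)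
    (h : HG hpO S (fun g => (extW ρ (algebraMap (ZMod p) (ResidueField O)) g).trace) ψ θT ρY)
    (P : JT.PtD hpO S ψ θT ρY χT ρW)
    (hL : LvH (JT.joint h P) hgk ϖ q ty ε A₀ Φ vv S₀ Un Q.S)
    {σ₀ : Fin t → 𝒢} {Qj : Fin t → Matrix (Fin 2) (Fin 2) (JT.joint h P).TT}
    (F : FrD (JT.joint h P) hgk q ty A₀ Φ vv σ₀ Qj)
    (hfY : FlatAll p (A₀ p) (fun g => ρY g))
    (hfW : FlatAll p (A₀ p) (fun g => mulVecLin (ρW g))) :
    ∃ z : Fin g → (JT.joint h P).TT, (∀ i, z i ∈ maximalIdeal (JT.joint h P).TT) ∧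
      maximalIdeal (JT.joint h P).TT ≤
        Ideal.span {algebraMap O (JT.joint h P).TT ϖ} ⊔ Ideal.span (Set.range z) ⊔
        Ideal.span (parS q ty ε (PhiJ (JT.joint h P) hgk ty Φ vv Qj)
          (ZG.NJ (JT.joint h P) hgk ty Φ vv σ₀ Qj)) ⊔
        maximalIdeal (JT.joint h P).TT ^ 2 :=
  ZG.gen_flat Q hL F fun Jd Dd hD hpJ =>
    mem_flatS_of_flatAll (JT.joint h P) hgk hp2 (SD.lies p hp.out)
      (flatAll_joint (SD.lies p hp.out) hfY hfW) hL.hred Jd Dd hD hpJ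

include SD hW in
/-- **Generators, case II.** -/
theorem gens_ord' (hss : W.IsSemistableModel) (hp2 : p ≠ 2) (hbad : (p : ℤ) ∣ W.Δ)
    (Q : TWn p (extW ρ (algebraMap (ZMod p) (ResidueField O))) S₀ A₀
        (ordL (extW ρ (algebraMap (ZMod p) (ResidueField O))) p) q Un r g n Sx)
    (h : HG hpO S (fun g => (extW ρ (algebraMap (ZMod p) (ResidueField O)) g).trace) ψ θT ρY)
    (P : JT.PtD hpO S ψ θT ρY χT ρW)
    (hL : LvH (JT.joint h P) hgk ϖ q ty ε A₀ Φ vv S₀ Un Q.S)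
    {σ₀ : Fin t → 𝒢} {Qj : Fin t → Matrix (Fin 2) (Fin 2) (JT.joint h P).TT}
    (F : FrD (JT.joint h P) hgk q ty A₀ Φ vv σ₀ Qj)
    (hord : ∀ σ ∈ (A₀ p).inertiaSubgroupIn ℚ, ∀ τ ∈ (A₀ p).inertiaSubgroupIn ℚ,
      (h.R hgk τ - algebraMap O h.TT (cycO hpO τ) • (1 : Matrix (Fin 2) (Fin 2) h.TT)) *
        (h.R hgk σ - 1) = 0)
    (hu : ∀ Φp : 𝒢, (A₀ p).IsFrobeniusAt Φp p → ∀ Q Qi, OrdR h hgk (A₀ p) Q Qi →
        (Qi * h.R hgk Φp * Q) 1 1 ^ 2 = 1) :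
    ∃ z : Fin g → (JT.joint h P).TT, (∀ i, z i ∈ maximalIdeal (JT.joint h P).TT) ∧
      maximalIdeal (JT.joint h P).TT ≤
        Ideal.span {algebraMap O (JT.joint h P).TT ϖ} ⊔ Ideal.span (Set.range z) ⊔
        Ideal.span (parS q ty ε (PhiJ (JT.joint h P) hgk ty Φ vv Qj)
          (ZG.NJ (JT.joint h P) hgk ty Φ vv σ₀ Qj)) ⊔
        maximalIdeal (JT.joint h P).TT ^ 2 := by
  have hA := SD.lies p hp.out
  obtain ⟨Φp, hΦp⟩ := exists_isFrobeniusAt (A₀ p) hp.out hA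
  have hordJ := SDat.hord_joint h P hss hbad hW hA hord
  obtain ⟨Qa, Qi, HO⟩ := ZG.exists_ordR (JT.joint h P) hgk hp2 hA hordJ
  exact ZG.gen_ord Q hL F hA HO hΦp (SDat.u_joint h P hp2 hss hbad hW hA hΦp (hu Φp hΦp) HO)

end gens

variable {W : WeierstrassCurve ℤ} {p : ℕ} [hp : Fact p.Prime] {ρ : 𝒢 →* M2 (ZMod p)}

/-- **Case I.** -/
theorem stepI (hΔ : W.Δ ≠ 0) (hp2 : p ≠ 2) (hirr : W.ModRepIsIrreducible p) (h : ResW W p ρ) :
    StepI W p ρ := by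
  intro O _ _ _ _ _ _ hpO hmax ι _ _ g₀ k₀ hgk ρW hW r₀ t q ty S₀ Un D hmod ε A₀ Φ vv SD hgood r g
    hTW _ s hs
  refine step_aux h hp2 hpO hmax ι hgk hW D SD hΔ hirr hmod hTW ?_ s hs
  intro n hn S' X m c hmc hc hm hv N _ hN S hSS hNS e B XV
  haveI := XV.hH
  haveI := XV.nt
  haveI := XV.fr
  intro P σ₀ Qj L F
  have hA := SD.lies p hp.out
  have hvS : ∀ i, X.qv i ∉ (S₀ : Set ℕ) := fun i hi => X.notS₀ i hi
  exact gens_flat' SD hp2 X XV.hg P L F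
    (lev_flat D hmax rfl (fun i => (X.tw i).prime) hvS hN e hA)
    (flatAll_W hA hp2 hgood (finite_quot hmax) hW)

end Fermat.Agent.CoreW
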