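import Fermat.Agent.CoreW.StepB

/-!
# The inner theorem, case II
-/

set_option autoImplicit false
set_option linter.unusedSectionVars false
set_option linter.style.haveILetI false

noncomputable section

namespace Fermat.Agent.CoreW

open Matrix IsLocalRing Fermat.Agent.GalRep Fermat.Agent.TW Fermat.Agent.Places Fermat.Agent.Flat
open Fermat.Agent.Cheb Fermat.Agent.KumG Fermat.Agent.MD Fermat.Agent.Sel Fermat.Agent.ImW
open Fermat.Agent.WM Fermat.Agent.StR Fermat.Agent.JT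
open Fermat.Agent.ZG (NData SDat TWn Det L0 LvH FrD parS PhiJ OrdR)
open Fermat.Agent.LC (ordL)

local notation "Ω" => AlgebraicClosure ℚ

local notation "𝒢" => (AlgebraicClosure ℚ) ≃ₐ[ℚ] (AlgebraicClosure ℚ)

/-- in the absence of modular forms at levels prime to `p`, the unramified quotient character at
`p` is quadratic -/
def UOne (W : WeierstrassCurve ℤ) (p : ℕ) [Fact p.Prime] (ρ : 𝒢 →* M2 (ZMod p)) : Prop :=
  ∀ (O : Type) [CommRing O] [IsDomain O] [IsDiscreteValuationRing O]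
    [IsAdicComplete (maximalIdeal O) O] [CharZero O] [Finite (ResidueField O)]
    (hpO : (p : O) ∈ maximalIdeal O) (_ : maximalIdeal O = Ideal.span {(p : O)})
    (ι : AlgebraicClosure ℚ →+* ℂ) [Invertible (2 : O)] [Algebra (ZMod p) (ResidueField O)]
    (g₀ k₀ : 𝒢)
    (hgk : HG.IrrAt (fun g => (extW ρ (algebraMap (ZMod p) (ResidueField O)) g).trace) g₀ k₀)
    (r₀ t : ℕ) (q : Fin t → ℕ) (ty : Fin t → Ty) (S₀ Un : Finset ℕ)
    (_ : BData W p r₀ ρ (ResidueField O) q ty S₀ Un p)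
    (_ : (p : ℤ) ∣ W.Δ) (_ : NoFlat W p)
    (r : ℕ) (v : Fin r → ℕ) (A : Fin r → ValuationSubring Ω) (Fv : Fin r → GQ)
    (_ : Function.Injective v) (_ : ∀ i, v i ∉ (S₀ : Set ℕ)) (m c : Fin r → ℕ)
    (_ : ∀ i, v i - 1 = p ^ m i * c i) (_ : ∀ i, ¬ p ∣ c i) (_ : ∀ i, 1 ≤ m i)
    (_ : ∀ i, TWp p (fun g => (extW ρ (algebraMap (ZMod p) (ResidueField O)) g).trace) (v i)
      (A i) (Fv i))
    (N : ℕ) [NeZero N] (_ : N = NJ p r₀ Un q Finset.univ * ∏ i, v i)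
    (S : Set ℕ) (_ : S = (S₀ : Set ℕ) ∪ Set.range v)
    (hNS : ∀ l, l.Prime → l ∣ N → l ∈ S) (e : TS O S) (B : ℕ)
    (X : Lev0 hpO ι hgk hNS (thS (tl (algebraMap (ZMod p) (ResidueField O)) W) S) v A m c e B),
    haveI := X.hH
    haveI := X.nt
    haveI := X.fr
    ∀ A' : ValuationSubring Ω, A'.LiesOverPrime p → ∀ Φp : 𝒢, A'.IsFrobeniusAt Φp p →
      ∀ Q Qi, OrdR X.hg hgk A' Q Qi → (Qi * X.hg.R hgk Φp * Q) 1 1 ^ 2 = 1

variable {W : WeierstrassCurve ℤ} {p : ℕ} [hp : Fact p.Prime] {ρ : 𝒢 →* M2 (ZMod p)}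

/-- **Case II.** -/
theorem stepII (hΔ : W.Δ ≠ 0) (hss : W.IsSemistableModel) (hp2 : p ≠ 2)
    (hirr : W.ModRepIsIrreducible p) (h : ResW W p ρ) (hU : UOne W p ρ) : StepII W p ρ := by
  intro O _ _ _ _ _ _ hpO hmax ι _ _ g₀ k₀ hgk ρW hW r₀ t q ty S₀ Un D hmod ε A₀ Φ vv SD hd hno r g
    hTW _ s hs
  refine step_aux h hp2 hpO hmax ι hgk hW D SD hΔ hirr hmod hTW ?_ s hs
  intro n hn S' X m c hmc hc hm hv N _ hN S hSS hNS e B XV
  haveI := XV.hH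
  haveI := XV.nt
  haveI := XV.fr
  intro P σ₀ Qj L F
  have hA := SD.lies p hp.out
  have hvS : ∀ i, X.qv i ∉ (S₀ : Set ℕ) := fun i hi => X.notS₀ i hi
  have hvpr : ∀ i, (X.qv i).Prime := fun i => (X.tw i).prime
  have hM' : NJ 1 r₀ Un q Finset.univ ≠ 0 := ((D.change (Or.inl rfl)).pos Finset.univ).ne'
  have hpM' : ¬ p ∣ NJ 1 r₀ Un q Finset.univ := fun hd' =>
    hp.out.one_lt.ne (((D.change (Or.inl rfl)).p_dvd_iff Finset.univ).1 hd')
  have hvN₀ : ∀ i, ¬ X.qv i ∣ p * NJ 1 r₀ Un q Finset.univ := fun i hd' => by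
    rw [← NJ_mul] at hd'
    exact hvS i (D.hNS₀ Finset.univ _ (hvpr i) hd')
  exact gens_ord' SD hW hss hp2 hd X XV.hg P L F
    (fun σ hσ τ hτ => hord_HG hΔ hp2 h hd (hss p hp.out hd) hgk hvpr X.inj hvN₀ hM' hpM'
      (by rw [hN, NJ_mul]) XV.hΔ XV.hg hA hσ hτ)
    (fun Φp hΦp Q Qi HO => hU O hpO hmax ι g₀ k₀ hgk r₀ t q ty S₀ Un D hd hno r X.qv X.A X.Φ X.inj
      hvS m c hmc hc hm hv N hN S hSS hNS e B XV (A₀ p) hA Φp hΦp Q Qi HO)

end Fermat.Agent.CoreW
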