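import Fermat.Agent.CoreW.UOneP
import Fermat.Agent.OrdH.UD

/-!
# The relation between `U_p` and Frobenius at the Taylor–Wiles levels
-/

set_option autoImplicit false
set_option linter.unusedSectionVars false
set_option linter.style.haveILetI false

noncomputable section

namespace Fermat.Agent.CoreW

open Matrix IsLocalRing Fermat.Agent.GalRep Fermat.Agent.TW Fermat.Agent.Places Fermat.Agent.Flat
open Fermat.Agent.Cheb Fermat.Agent.KumG Fermat.Agent.MD Fermat.Agent.Sel Fermat.Agent.ImW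
open Fermat.Agent.WM Fermat.Agent.StR Fermat.Agent.JT Fermat.Agent.S59e Fermat.Agent.SSH
open Fermat.Agent.Cov Fermat.Agent.E2Y Fermat.Agent.OrdH

local notation "Ω" => AlgebraicClosure ℚ

local notation "𝒢" => (AlgebraicClosure ℚ) ≃ₐ[ℚ] (AlgebraicClosure ℚ)

section gen

variable {M₀ M M' N N' : ℕ} {p : ℕ} [hp : Fact p.Prime] [NeZero M] [NeZero M'] [NeZero N]
  {L : List ℕ} {H : Subgroup (ZMod M)ˣ} [hH : Fact ((-1 : (ZMod M)ˣ) ∈ H)]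
  {H' : Subgroup (ZMod N)ˣ} [hH' : Fact ((-1 : (ZMod N)ˣ) ∈ H')] (h2 : Lv2 p H H')
  (V : TwL' M₀ N N' L H') (hN' : N' = p * M')
  {O : Type} [CommRing O] {S : Set ℕ}
  {hNS : ∀ l, l.Prime → l ∣ N → l ∈ S} {e : TS O S} [IsLocalRing O] [IsNoetherianRing O]
  [IsAdicComplete (maximalIdeal O) O]
  {hpO : (p : O) ∈ maximalIdeal O} {ι : AlgebraicClosure ℚ →+* ℂ}
  {t : GQ → ResidueField O} [hfr : Module.Free O (YH H' hNS e)]
  [hnt : Nontrivial (YH H' hNS e)]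
  {θ : TD O S N →ₐ[O] ResidueField O}
  (h : HG hpO S t (psiY H' hNS e) θ (rhoY hpO ι H' hNS e))

include V hN' in
theorem uRelN [Finite (ResidueField O)] [Invertible (2 : O)] (hpM : ¬ p ∣ M) (hpM' : ¬ p ∣ M')
    (hp2 : p ≠ 2) (hodd : Odd (Fintype.card (DG N H'))) (hpS : p ∈ S)
    (hres : ∀ A : ValuationSubring (AlgebraicClosure ℚ), A.LiesOverPrime p →
      ∀ σ ∈ A.inertiaSubgroupIn ℚ, ∀ τ ∈ A.inertiaSubgroupIn ℚ, ∀ g,
      t (σ * τ * g) - t (σ * g) - residue O (cycO hpO σ) * t (τ * g) +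
        residue O (cycO hpO σ) * t g = 0)
    {g₀ k₀ : GQ} (hgk : HG.IrrAt t g₀ k₀) (D : SSH.WData p M H) : URelN h2 h D hpM := by
  obtain ⟨hN, hH⟩ := h2
  subst hN
  subst hH
  subst hN'
  exact @uRel M₀ M M' p hp _ _ L H _ V O _ S hNS e _ _ _ hpO ι t hfr hnt θ h _ _ hpM hpM' hp2 hodd
    hpS hres g₀ k₀ hgk D

end gen

variable {W : WeierstrassCurve ℤ} {p : ℕ} [hp : Fact p.Prime] {ρ : 𝒢 →* M2 (ZMod p)}

/-- **The relation between `U_p` and Frobenius at the Taylor–Wiles levels.** -/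
theorem uRelLev (hΔ : W.Δ ≠ 0) (hss : W.IsSemistableModel) (hp2 : p ≠ 2) (h : ResW W p ρ) :
    URelLev W p ρ := by
  intro O _ _ _ _ _ _ hpO hmax ι _ _ g₀ k₀ hgk r₀ t q ty S₀ Un D hd J r v A Fv hinj hvS m c hmc hc
    hm hv N _ hN S hSS hNS e B X M _ hM hvM _ hpM h2 D'
  haveI := X.hH
  haveI := X.nt
  haveI := X.fr
  have D1 := D.change (Or.inl rfl : (1 : ℕ) = 1 ∨ (1 : ℕ) = p)
  have hvpr : ∀ i, (v i).Prime := fun i => (hv i).prime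
  obtain ⟨M₁, hM₁⟩ : ∃ M₁, M₁ = NJ 1 r₀ Un q J := ⟨_, rfl⟩
  have hM₁0 : M₁ ≠ 0 := hM₁ ▸ (D1.pos J).ne'
  have hprod : ∏ i, v i ≠ 0 := Finset.prod_ne_zero_iff.2 fun i _ => (hvpr i).ne_zero
  have hN₀ : p * M₁ ≠ 0 := mul_ne_zero hp.out.ne_zero hM₁0
  have hvN₀ : ∀ i, ¬ v i ∣ p * M₁ := fun i hd' => by
    rw [hM₁, ← NJ_mul] at hd'
    exact hvS i (D.hNS₀ J _ (hvpr i) hd')
  have hN1 : N = p * M₁ * ∏ i, v i := by rw [hN, NJ_mul, hM₁]
  have V := twl_of hvpr hinj hvN₀ hN₀ hN1 X.hvN c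
  have hpM₁ : ¬ p ∣ M₁ := fun h1 => hp.out.one_lt.ne ((D1.p_dvd_iff J).1 (hM₁ ▸ h1))
  have hpv : ¬ p ∣ ∏ i, v i := by
    intro hd
    obtain ⟨i, -, hi⟩ := (hp.out.prime.dvd_finsetProd_iff _).1 hd
    rw [Nat.prime_dvd_prime_iff_eq hp.out (hvpr i)] at hi
    exact hvN₀ i (hi ▸ dvd_mul_right p M₁)
  have hpM' : ¬ p ∣ M₁ * (∏ i, v i) * ∏ i, v i := by
    intro hd
    rcases (hp.out.dvd_mul).1 hd with hd | hd
    · rcases (hp.out.dvd_mul).1 hd with hd | hd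
      · exact hpM₁ hd
      · exact hpv hd
    · exact hpv hd
  haveI : NeZero (M₁ * (∏ i, v i) * ∏ i, v i) := ⟨mul_ne_zero (mul_ne_zero hM₁0 hprod) hprod⟩
  have hpS : p ∈ S := hNS p hp.out (hN1 ▸ (dvd_mul_right p M₁).mul_right _)
  exact uRelN (M' := M₁ * (∏ i, v i) * ∏ i, v i) h2 V (by ring) X.hg hpM hpM' hp2
    (AsmF.odd_card_of_pGroup hp2 X.hΔ) hpS
    (fun A hA σ hσ τ hτ g => res_tr hpO hΔ hp2 h hd (hss p hp.out hd) hA hσ hτ g) hgk D'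

/-- **The quotient character is quadratic in case II.** -/
theorem uOne_W (hΔ : W.Δ ≠ 0) (hss : W.IsSemistableModel) (hp2 : p ≠ 2) (h : ResW W p ρ) :
    UOne W p ρ := uOne hΔ hss hp2 h (uRelLev hΔ hss hp2 h)

end Fermat.Agent.CoreW
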